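/-
S41lib / HC / AtkinLehner (helper1): the Atkin–Lehner normaliser of `Γ₀(N ℓ)` (copy of the S31lib/PET
branch file under the S41lib namespace, extended by multiplicativity and `W² = ℓ · w₀`).
An Atkin–Lehner matrix `W = (ℓx, y; Nℓz, ℓw)` (`ℓ x w - N y z = 1`) normalises `Γ₀(N ℓ)`.
-/
import Mathlib

set_option autoImplicit false
set_option linter.unusedSectionVars false

noncomputable section

namespace Fermat.Agent.S41lib.HC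

open Matrix.SpecialLinearGroup CongruenceSubgroup
open scoped MatrixGroups

/-- the integer Atkin–Lehner matrix `(ℓx, y; Mz, ℓw)` (with `M = N ℓ`) -/
def alMat (N ℓ : ℕ) (x y z w : ℤ) : Matrix (Fin 2) (Fin 2) ℤ :=
  !![(ℓ : ℤ) * x, y; (N : ℤ) * (ℓ : ℤ) * z, (ℓ : ℤ) * w]

theorem det_alMat (N ℓ : ℕ) (x y z w : ℤ) (h : (ℓ : ℤ) * x * w - (N : ℤ) * y * z = 1) :
    (alMat N ℓ x y z w).det = (ℓ : ℤ) := by
  rw [alMat, Matrix.det_fin_two_of]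
  linear_combination (ℓ : ℤ) * h

/-- the conjugate `W⁻¹ γ W` as an integer matrix -/
def alConjMat (N ℓ : ℕ) (x y z w : ℤ) (p q r' s : ℤ) : Matrix (Fin 2) (Fin 2) ℤ :=
  !![((ℓ : ℤ) * w * p - y * (N : ℤ) * (ℓ : ℤ) * r') * x + ((ℓ : ℤ) * w * q - y * s) * (N : ℤ) * z,
     (w * p - y * (N : ℤ) * r') * y + ((ℓ : ℤ) * w * q - y * s) * w;
     (N : ℤ) * (ℓ : ℤ) * ((-(z * p) + (ℓ : ℤ) * x * r') * x + (-((N : ℤ) * z * q) + x * s) * z),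
     (-((N : ℤ) * z * p) + x * (N : ℤ) * (ℓ : ℤ) * r') * y
       + (-((N : ℤ) * (ℓ : ℤ) * z * q) + (ℓ : ℤ) * x * s) * w]

theorem alMat_mul_alConjMat (N ℓ : ℕ) (x y z w : ℤ)
    (h : (ℓ : ℤ) * x * w - (N : ℤ) * y * z = 1) (p q r' s : ℤ) :
    alMat N ℓ x y z w * alConjMat N ℓ x y z w p q r' s =
      !![p, q; (N : ℤ) * (ℓ : ℤ) * r', s] * alMat N ℓ x y z w := by
  ext i j
  fin_cases i <;> fin_cases j <;>
    simp only [alMat, alConjMat, Matrix.mul_apply, Fin.sum_univ_two, Matrix.of_apply,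
      Matrix.cons_val', Matrix.cons_val_zero, Matrix.cons_val_one, Matrix.empty_val',
      Matrix.cons_val_fin_one, Fin.zero_eta, Fin.mk_one]
  · linear_combination ((ℓ : ℤ) * x * p + y * (N : ℤ) * (ℓ : ℤ) * r' * 0 + (N:ℤ) * (ℓ:ℤ) * z * q) * h
  · linear_combination (p * y + q * (ℓ : ℤ) * w) * h
  · linear_combination ((N : ℤ) * (ℓ : ℤ) * r' * (ℓ : ℤ) * x + s * (N : ℤ) * (ℓ : ℤ) * z) * h
  · linear_combination ((N : ℤ) * (ℓ : ℤ) * r' * y + s * (ℓ : ℤ) * w) * h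

section Conj

variable {N ℓ : ℕ} [NeZero ℓ] (x y z w : ℤ) (h : (ℓ : ℤ) * x * w - (N : ℤ) * y * z = 1)

theorem coe_eq_of_mem_Gamma0_mul (γ : ↥(Gamma0 (N * ℓ))) :
    ((γ : SL(2, ℤ)) : Matrix (Fin 2) (Fin 2) ℤ) =
      !![(γ : SL(2, ℤ)) 0 0, (γ : SL(2, ℤ)) 0 1;
        (N : ℤ) * (ℓ : ℤ) * ((γ : SL(2, ℤ)) 1 0 / ((N : ℤ) * (ℓ : ℤ))), (γ : SL(2, ℤ)) 1 1] := by
  have h1 : ((N : ℤ) * (ℓ : ℤ)) ∣ (γ : SL(2, ℤ)) 1 0 := by
    have := (ZMod.intCast_zmod_eq_zero_iff_dvd _ _).mp (Gamma0_mem.mp γ.2)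
    exact_mod_cast this
  rw [Int.mul_ediv_cancel' h1]
  exact Matrix.eta_fin_two _

include h in
theorem det_alConjMat (γ : ↥(Gamma0 (N * ℓ))) :
    (alConjMat N ℓ x y z w ((γ : SL(2, ℤ)) 0 0) ((γ : SL(2, ℤ)) 0 1)
      ((γ : SL(2, ℤ)) 1 0 / ((N : ℤ) * (ℓ : ℤ))) ((γ : SL(2, ℤ)) 1 1)).det = 1 := by
  have h1 := alMat_mul_alConjMat N ℓ x y z w h ((γ : SL(2, ℤ)) 0 0) ((γ : SL(2, ℤ)) 0 1)
      ((γ : SL(2, ℤ)) 1 0 / ((N : ℤ) * (ℓ : ℤ))) ((γ : SL(2, ℤ)) 1 1)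
  rw [← coe_eq_of_mem_Gamma0_mul γ] at h1
  have h2 := congrArg Matrix.det h1
  rw [Matrix.det_mul, Matrix.det_mul, det_alMat N ℓ x y z w h, (γ : SL(2, ℤ)).det_coe, one_mul] at h2
  have hℓ : (ℓ : ℤ) ≠ 0 := by exact_mod_cast NeZero.ne ℓ
  exact mul_left_cancel₀ hℓ (h2.trans (mul_one _).symm)

/-- the conjugate `W⁻¹ γ W ∈ Γ₀(N ℓ)` -/
def alConj (γ : ↥(Gamma0 (N * ℓ))) : ↥(Gamma0 (N * ℓ)) :=
  ⟨⟨alConjMat N ℓ x y z w ((γ : SL(2, ℤ)) 0 0) ((γ : SL(2, ℤ)) 0 1)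
      ((γ : SL(2, ℤ)) 1 0 / ((N : ℤ) * (ℓ : ℤ))) ((γ : SL(2, ℤ)) 1 1), det_alConjMat x y z w h γ⟩, by
    rw [Gamma0_mem, ZMod.intCast_zmod_eq_zero_iff_dvd]
    refine ⟨(-(z * (γ : SL(2, ℤ)) 0 0) + (ℓ : ℤ) * x * ((γ : SL(2, ℤ)) 1 0 / ((N : ℤ) * (ℓ : ℤ)))) * x
      + (-((N : ℤ) * z * (γ : SL(2, ℤ)) 0 1) + x * (γ : SL(2, ℤ)) 1 1) * z, ?_⟩
    show alConjMat N ℓ x y z w _ _ _ _ 1 0 = _
    simp only [alConjMat, Matrix.of_apply, Matrix.cons_val', Matrix.cons_val_zero,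
      Matrix.cons_val_one, Matrix.empty_val', Matrix.cons_val_fin_one]
    push_cast
    ring⟩

theorem alMat_mul_alConj (γ : ↥(Gamma0 (N * ℓ))) :
    alMat N ℓ x y z w * ((alConj x y z w h γ : ↥(Gamma0 (N * ℓ))) : SL(2, ℤ)).1 =
      ((γ : SL(2, ℤ)) : Matrix (Fin 2) (Fin 2) ℤ) * alMat N ℓ x y z w := by
  have h1 := alMat_mul_alConjMat N ℓ x y z w h ((γ : SL(2, ℤ)) 0 0) ((γ : SL(2, ℤ)) 0 1)
      ((γ : SL(2, ℤ)) 1 0 / ((N : ℤ) * (ℓ : ℤ))) ((γ : SL(2, ℤ)) 1 1)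
  rw [← coe_eq_of_mem_Gamma0_mul γ] at h1
  exact h1

/-- the real Atkin–Lehner matrix -/
def alGL : GL (Fin 2) ℝ :=
  Matrix.GeneralLinearGroup.mkOfDetNeZero ((alMat N ℓ x y z w).map (Int.castRingHom ℝ)) (by
    rw [← RingHom.mapMatrix_apply, ← RingHom.map_det, det_alMat N ℓ x y z w h]
    simpa using NeZero.ne ℓ)

theorem coe_alGL :
    ((alGL x y z w h : GL (Fin 2) ℝ) : Matrix (Fin 2) (Fin 2) ℝ) =
      (alMat N ℓ x y z w).map (Int.castRingHom ℝ) := rfl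

theorem det_alGL : ((alGL x y z w h : GL (Fin 2) ℝ).det : ℝ) = (ℓ : ℝ) := by
  rw [Matrix.GeneralLinearGroup.val_det_apply, coe_alGL, ← RingHom.mapMatrix_apply,
    ← RingHom.map_det, det_alMat N ℓ x y z w h]
  simp

theorem coe_mapGL_eq (g : SL(2, ℤ)) :
    ((mapGL ℝ g : GL (Fin 2) ℝ) : Matrix (Fin 2) (Fin 2) ℝ) =
      (g : Matrix (Fin 2) (Fin 2) ℤ).map (Int.castRingHom ℝ) := by
  rw [mapGL_coe_matrix]
  rfl

/-- `W · (W⁻¹ γ W) = γ · W` in `GL₂(ℝ)` -/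
theorem alGL_mul_alConj (γ : ↥(Gamma0 (N * ℓ))) :
    alGL x y z w h * (mapGL ℝ ((alConj x y z w h γ : ↥(Gamma0 (N * ℓ))) : SL(2, ℤ)) : GL (Fin 2) ℝ) =
      (mapGL ℝ (γ : SL(2, ℤ)) : GL (Fin 2) ℝ) * alGL x y z w h := by
  apply Units.ext
  rw [Units.val_mul, Units.val_mul]
  show ((alGL x y z w h : GL (Fin 2) ℝ) : Matrix (Fin 2) (Fin 2) ℝ) *
      ((mapGL ℝ ((alConj x y z w h γ : ↥(Gamma0 (N * ℓ))) : SL(2, ℤ)) : GL (Fin 2) ℝ) :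
        Matrix (Fin 2) (Fin 2) ℝ) =
    ((mapGL ℝ (γ : SL(2, ℤ)) : GL (Fin 2) ℝ) : Matrix (Fin 2) (Fin 2) ℝ) *
      ((alGL x y z w h : GL (Fin 2) ℝ) : Matrix (Fin 2) (Fin 2) ℝ)
  rw [coe_alGL, coe_mapGL_eq, coe_mapGL_eq, ← Matrix.map_mul, ← Matrix.map_mul]
  exact congrArg (fun M => M.map (Int.castRingHom ℝ)) (alMat_mul_alConj x y z w h γ)

/-! ### The inverse conjugation and the automorphism of `Γ₀(N ℓ)` -/

theorem alMat_mul_alMat_adj (N ℓ : ℕ) (x y z w : ℤ)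
    (h : (ℓ : ℤ) * x * w - (N : ℤ) * y * z = 1) :
    alMat N ℓ x y z w * alMat N ℓ w (-y) (-z) x = (ℓ : ℤ) • (1 : Matrix (Fin 2) (Fin 2) ℤ) := by
  ext i j
  fin_cases i <;> fin_cases j <;>
    simp only [alMat, Matrix.mul_apply, Fin.sum_univ_two, Matrix.of_apply,
      Matrix.cons_val', Matrix.cons_val_zero, Matrix.cons_val_one, Matrix.empty_val',
      Matrix.cons_val_fin_one, Fin.zero_eta, Fin.mk_one, Matrix.smul_apply, Matrix.one_apply_eq,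
      Matrix.one_apply_ne, ne_eq, zero_ne_one, one_ne_zero, not_false_eq_true, smul_eq_mul,
      mul_one, mul_zero]
  · linear_combination (ℓ : ℤ) * h
  · ring
  · ring
  · linear_combination (ℓ : ℤ) * h

include h in
theorem adj_rel : (ℓ : ℤ) * w * x - (N : ℤ) * (-y) * (-z) = 1 := by linear_combination h

theorem alConj_adj_alConj (γ : ↥(Gamma0 (N * ℓ))) :
    alConj w (-y) (-z) x (adj_rel x y z w h) (alConj x y z w h γ) = γ := by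
  have hℓ : (ℓ : ℤ) ≠ 0 := by exact_mod_cast NeZero.ne ℓ
  have h1 := alMat_mul_alConj x y z w h γ
  have h2 := alMat_mul_alConj w (-y) (-z) x (adj_rel x y z w h) (alConj x y z w h γ)
  have h3 := alMat_mul_alMat_adj N ℓ x y z w h
  set A := alMat N ℓ x y z w
  set A' := alMat N ℓ w (-y) (-z) x
  set E1 := ((alConj x y z w h γ : ↥(Gamma0 (N * ℓ))) : SL(2, ℤ)).1
  set E2 := ((alConj w (-y) (-z) x (adj_rel x y z w h) (alConj x y z w h γ) :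
    ↥(Gamma0 (N * ℓ))) : SL(2, ℤ)).1
  have h4 : (ℓ : ℤ) • E2 = (ℓ : ℤ) • ((γ : SL(2, ℤ)) : Matrix (Fin 2) (Fin 2) ℤ) := by
    calc (ℓ : ℤ) • E2 = (A * A') * E2 := by rw [h3, Matrix.smul_mul, Matrix.one_mul]
      _ = A * (A' * E2) := Matrix.mul_assoc _ _ _
      _ = A * (E1 * A') := by rw [h2]
      _ = (A * E1) * A' := (Matrix.mul_assoc _ _ _).symm
      _ = (((γ : SL(2, ℤ)) : Matrix (Fin 2) (Fin 2) ℤ) * A) * A' := by rw [h1]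
      _ = ((γ : SL(2, ℤ)) : Matrix (Fin 2) (Fin 2) ℤ) * (A * A') := Matrix.mul_assoc _ _ _
      _ = (ℓ : ℤ) • ((γ : SL(2, ℤ)) : Matrix (Fin 2) (Fin 2) ℤ) := by
          rw [h3, Matrix.mul_smul, Matrix.mul_one]
  have h5 : E2 = ((γ : SL(2, ℤ)) : Matrix (Fin 2) (Fin 2) ℤ) := by
    ext i j
    have := congrFun (congrFun h4 i) j
    simp only [Matrix.smul_apply, smul_eq_mul] at this
    exact mul_left_cancel₀ hℓ this
  exact Subtype.ext (Subtype.ext h5)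

/-- conjugation by `W` as a permutation of `Γ₀(N ℓ)` -/
def alConjEquiv : ↥(Gamma0 (N * ℓ)) ≃ ↥(Gamma0 (N * ℓ)) where
  toFun := alConj x y z w h
  invFun := alConj w (-y) (-z) x (adj_rel x y z w h)
  left_inv := alConj_adj_alConj x y z w h
  right_inv γ := by
    have := alConj_adj_alConj w (-y) (-z) x (adj_rel x y z w h) γ
    simp only [neg_neg] at this
    exact this

@[simp] theorem alConjEquiv_apply (γ : ↥(Gamma0 (N * ℓ))) :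
    alConjEquiv x y z w h γ = alConj x y z w h γ := rfl

/-- `W' · γ = (W⁻¹ γ W) · W'` for the adjugate `W'` of `W` -/
theorem alGL_adj_mul (γ : ↥(Gamma0 (N * ℓ))) :
    alGL w (-y) (-z) x (adj_rel x y z w h) * (mapGL ℝ (γ : SL(2, ℤ)) : GL (Fin 2) ℝ) =
      (mapGL ℝ ((alConj x y z w h γ : ↥(Gamma0 (N * ℓ))) : SL(2, ℤ)) : GL (Fin 2) ℝ) *
        alGL w (-y) (-z) x (adj_rel x y z w h) := by
  have h1 := alGL_mul_alConj w (-y) (-z) x (adj_rel x y z w h) (alConj x y z w h γ)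
  rw [alConj_adj_alConj x y z w h γ] at h1
  exact h1

/-! ### Multiplicativity -/

include h in
theorem alMat_mul_left_cancel {X Y : Matrix (Fin 2) (Fin 2) ℤ}
    (hXY : alMat N ℓ x y z w * X = alMat N ℓ x y z w * Y) : X = Y := by
  have hℓ : (ℓ : ℤ) ≠ 0 := by exact_mod_cast NeZero.ne ℓ
  have h3 := alMat_mul_alMat_adj N ℓ w (-y) (-z) x (adj_rel x y z w h)
  simp only [neg_neg] at h3
  have h4 : (ℓ : ℤ) • X = (ℓ : ℤ) • Y := by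
    calc (ℓ : ℤ) • X = (alMat N ℓ w (-y) (-z) x * alMat N ℓ x y z w) * X := by
          rw [h3, Matrix.smul_mul, Matrix.one_mul]
      _ = alMat N ℓ w (-y) (-z) x * (alMat N ℓ x y z w * X) := Matrix.mul_assoc _ _ _
      _ = alMat N ℓ w (-y) (-z) x * (alMat N ℓ x y z w * Y) := by rw [hXY]
      _ = (alMat N ℓ w (-y) (-z) x * alMat N ℓ x y z w) * Y := (Matrix.mul_assoc _ _ _).symm
      _ = (ℓ : ℤ) • Y := by rw [h3, Matrix.smul_mul, Matrix.one_mul]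
  ext i j
  have := congrFun (congrFun h4 i) j
  simp only [Matrix.smul_apply, smul_eq_mul] at this
  exact mul_left_cancel₀ hℓ this

theorem alConj_mul (γ₁ γ₂ : ↥(Gamma0 (N * ℓ))) :
    alConj x y z w h (γ₁ * γ₂) = alConj x y z w h γ₁ * alConj x y z w h γ₂ := by
  apply Subtype.ext
  apply Subtype.ext
  apply alMat_mul_left_cancel x y z w h
  have h1 := alMat_mul_alConj x y z w h γ₁
  have h2 := alMat_mul_alConj x y z w h γ₂
  have h12 := alMat_mul_alConj x y z w h (γ₁ * γ₂)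
  rw [h12]
  show ((γ₁ : SL(2, ℤ)) * (γ₂ : SL(2, ℤ)) : SL(2, ℤ)).1 * alMat N ℓ x y z w =
    alMat N ℓ x y z w *
      (((alConj x y z w h γ₁ : ↥(Gamma0 (N * ℓ))) : SL(2, ℤ)) *
        ((alConj x y z w h γ₂ : ↥(Gamma0 (N * ℓ))) : SL(2, ℤ)) : SL(2, ℤ)).1
  rw [Matrix.SpecialLinearGroup.coe_mul, Matrix.SpecialLinearGroup.coe_mul, Matrix.mul_assoc, ← h2,
    ← Matrix.mul_assoc, ← h1, Matrix.mul_assoc]

/-- conjugation by `W` as a group automorphism of `Γ₀(N ℓ)` -/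
def alConjMulEquiv : ↥(Gamma0 (N * ℓ)) ≃* ↥(Gamma0 (N * ℓ)) :=
  { alConjEquiv x y z w h with
    map_mul' := alConj_mul x y z w h }

@[simp] theorem alConjMulEquiv_apply (γ : ↥(Gamma0 (N * ℓ))) :
    alConjMulEquiv x y z w h γ = alConj x y z w h γ := rfl

@[simp] theorem alConjMulEquiv_symm_apply (γ : ↥(Gamma0 (N * ℓ))) :
    (alConjMulEquiv x y z w h).symm γ = alConj w (-y) (-z) x (adj_rel x y z w h) γ := rfl

/-! ### `W² = ℓ · w₀` with `w₀ ∈ Γ₀(N ℓ)` -/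

/-- `w₀ = W² / ℓ ∈ Γ₀(N ℓ)` -/
def alSq : ↥(Gamma0 (N * ℓ)) :=
  ⟨⟨!![(ℓ : ℤ) * x ^ 2 + (N : ℤ) * y * z, y * (x + w);
      (N : ℤ) * (ℓ : ℤ) * z * (x + w), (ℓ : ℤ) * w ^ 2 + (N : ℤ) * y * z], by
    rw [Matrix.det_fin_two_of]
    linear_combination ((ℓ : ℤ) * x * w - (N : ℤ) * y * z + 1) * h⟩, by
    rw [Gamma0_mem, ZMod.intCast_zmod_eq_zero_iff_dvd]
    refine ⟨z * (x + w), ?_⟩
    show (N : ℤ) * (ℓ : ℤ) * z * (x + w) = _
    push_cast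
    ring⟩

theorem alMat_mul_self :
    alMat N ℓ x y z w * alMat N ℓ x y z w =
      (ℓ : ℤ) • ((alSq x y z w h : ↥(Gamma0 (N * ℓ))) : SL(2, ℤ)).1 := by
  ext i j
  fin_cases i <;> fin_cases j <;>
    simp only [alMat, alSq, Matrix.mul_apply, Fin.sum_univ_two, Matrix.of_apply,
      Matrix.cons_val', Matrix.cons_val_zero, Matrix.cons_val_one, Matrix.empty_val',
      Matrix.cons_val_fin_one, Fin.zero_eta, Fin.mk_one, Matrix.smul_apply, smul_eq_mul] <;>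
    ring

/-- `W⁻² γ W² = w₀⁻¹ γ w₀` -/
theorem alConj_alConj (γ : ↥(Gamma0 (N * ℓ))) :
    alConj x y z w h (alConj x y z w h γ) =
      (alSq x y z w h)⁻¹ * γ * alSq x y z w h := by
  have hℓ : (ℓ : ℤ) ≠ 0 := by exact_mod_cast NeZero.ne ℓ
  rw [eq_comm, mul_assoc, inv_mul_eq_iff_eq_mul, eq_comm]
  apply Subtype.ext
  apply Subtype.ext
  have h1 := alMat_mul_alConj x y z w h γ
  have h2 := alMat_mul_alConj x y z w h (alConj x y z w h γ)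
  have h3 := alMat_mul_self x y z w h
  set A := alMat N ℓ x y z w
  set W0 := ((alSq x y z w h : ↥(Gamma0 (N * ℓ))) : SL(2, ℤ)).1
  set E1 := ((alConj x y z w h γ : ↥(Gamma0 (N * ℓ))) : SL(2, ℤ)).1
  set E2 := ((alConj x y z w h (alConj x y z w h γ) : ↥(Gamma0 (N * ℓ))) : SL(2, ℤ)).1
  show W0 * E2 = ((γ : SL(2, ℤ)) : Matrix (Fin 2) (Fin 2) ℤ) * W0
  have h4 : (ℓ : ℤ) • (W0 * E2) = (ℓ : ℤ) • (((γ : SL(2, ℤ)) : Matrix (Fin 2) (Fin 2) ℤ) * W0) := by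
    calc (ℓ : ℤ) • (W0 * E2) = (A * A) * E2 := by rw [h3, Matrix.smul_mul]
      _ = A * (A * E2) := Matrix.mul_assoc _ _ _
      _ = A * (E1 * A) := by rw [h2]
      _ = (A * E1) * A := (Matrix.mul_assoc _ _ _).symm
      _ = (((γ : SL(2, ℤ)) : Matrix (Fin 2) (Fin 2) ℤ) * A) * A := by rw [h1]
      _ = ((γ : SL(2, ℤ)) : Matrix (Fin 2) (Fin 2) ℤ) * (A * A) := Matrix.mul_assoc _ _ _
      _ = (ℓ : ℤ) • (((γ : SL(2, ℤ)) : Matrix (Fin 2) (Fin 2) ℤ) * W0) := by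
          rw [h3, Matrix.mul_smul]
  ext i j
  have := congrFun (congrFun h4 i) j
  simp only [Matrix.smul_apply, smul_eq_mul] at this
  exact mul_left_cancel₀ hℓ this

end Conj

end Fermat.Agent.S41lib.HC
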