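/-
S41lib / HC / CosetData (helper1).

Abstract coset data between two groups and the induced operators on `Hom(Γ, A)`, `A` an abelian
group with trivial action:  a right permutation action `σ` of `Γ` on a finite index set `ι` and a
`Γ'`-valued cocycle `c` with `c (γ γ') x = c γ x * c γ' (σ γ x)` give
`op : Hom(Γ', A) → Hom(Γ, A)`, `(op φ)(γ) = ∑ x, φ (c γ x)`
(restriction, transfer, conjugation and Hecke operators are all of this form).
Composition of coset data, independence of the choice of representatives, naturality in `A`.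
-/
import Mathlib

set_option autoImplicit false
set_option linter.unusedSectionVars false

noncomputable section

namespace Fermat.Agent.S41lib.HC

/-- A right permutation action of `Γ` on `ι` and a `Γ'`-valued cocycle. -/
structure CosetData (Γ Γ' : Type*) [Group Γ] [Group Γ'] (ι : Type*) where
  /-- the permutation induced by `γ` -/
  σ : Γ → Equiv.Perm ι
  /-- the cocycle -/
  c : Γ → ι → Γ'
  σ_mul : ∀ γ γ' x, σ (γ * γ') x = σ γ' (σ γ x)
  c_mul : ∀ γ γ' x, c (γ * γ') x = c γ x * c γ' (σ γ x)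

namespace CosetData

variable {Γ Γ' Γ'' : Type*} [Group Γ] [Group Γ'] [Group Γ'']
variable {ι κ : Type*} [Fintype ι] [Fintype κ]

section Op

variable (D : CosetData Γ Γ' ι)

/-- the operator on one homomorphism: `(op φ)(γ) = ∑ x, φ (c γ x)` -/
def opHom {A : Type*} [AddCommGroup A] (φ : Additive Γ' →+ A) : Additive Γ →+ A :=
  AddMonoidHom.mk' (fun γ => ∑ x, φ (Additive.ofMul (D.c (Additive.toMul γ) x))) (by
    intro γ γ'
    show ∑ x, φ (Additive.ofMul (D.c (Additive.toMul γ * Additive.toMul γ') x)) = _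
    simp_rw [D.c_mul, ofMul_mul, map_add]
    rw [Finset.sum_add_distrib]
    congr 1
    exact Equiv.sum_comp (D.σ (Additive.toMul γ))
      (fun x => φ (Additive.ofMul (D.c (Additive.toMul γ') x))))

@[simp] theorem opHom_apply {A : Type*} [AddCommGroup A] (φ : Additive Γ' →+ A) (γ : Γ) :
    D.opHom φ (Additive.ofMul γ) = ∑ x, φ (Additive.ofMul (D.c γ x)) := rfl

/-- the operator `Hom(Γ', A) → Hom(Γ, A)` -/
def op (A : Type*) [AddCommGroup A] : (Additive Γ' →+ A) →+ (Additive Γ →+ A) where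
  toFun φ := D.opHom φ
  map_zero' := by
    ext γ
    simp [opHom]
  map_add' φ φ' := by
    ext γ
    simp [opHom, Finset.sum_add_distrib]

@[simp] theorem op_apply {A : Type*} [AddCommGroup A] (φ : Additive Γ' →+ A) (γ : Γ) :
    D.op A φ (Additive.ofMul γ) = ∑ x, φ (Additive.ofMul (D.c γ x)) := rfl

theorem op_apply' {A : Type*} [AddCommGroup A] (φ : Additive Γ' →+ A) (γ : Additive Γ) :
    D.op A φ γ = ∑ x, φ (Additive.ofMul (D.c (Additive.toMul γ) x)) := rfl

/-- naturality in the coefficient group -/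
theorem op_comp_hom {A A' : Type*} [AddCommGroup A] [AddCommGroup A'] (f : A →+ A')
    (φ : Additive Γ' →+ A) : D.op A' (f.comp φ) = f.comp (D.op A φ) := by
  ext γ
  show ∑ x, f (φ _) = f (∑ x, φ _)
  rw [map_sum]

/-- the operator is linear for any module structure on the coefficients -/
def opₗ (R : Type*) [Semiring R] (A : Type*) [AddCommGroup A] [Module R A] :
    (Additive Γ' →+ A) →ₗ[R] (Additive Γ →+ A) where
  toFun φ := D.op A φ
  map_add' φ φ' := map_add (D.op A) φ φ'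
  map_smul' r φ := by
    ext γ
    show ∑ x, r • φ _ = r • ∑ x, φ _
    rw [Finset.smul_sum]

@[simp] theorem opₗ_apply (R : Type*) [Semiring R] {A : Type*} [AddCommGroup A] [Module R A]
    (φ : Additive Γ' →+ A) : D.opₗ R A φ = D.op A φ := rfl

end Op

/-! ### Independence of the representatives -/

/-- Two coset data whose cocycles are conjugate (`c₂ γ (e x) = d x * c₁ γ x * (d (σ₁ γ x))⁻¹`)
induce the same operator. -/
theorem op_eq_of_conj (D₁ : CosetData Γ Γ' ι) (D₂ : CosetData Γ Γ' κ) (e : ι ≃ κ) (d : ι → Γ')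
    (hc : ∀ γ x, D₂.c γ (e x) = d x * D₁.c γ x * (d (D₁.σ γ x))⁻¹)
    (A : Type*) [AddCommGroup A] : D₂.op A = D₁.op A := by
  ext φ γ
  show ∑ k, φ (Additive.ofMul (D₂.c (Additive.toMul γ) k)) =
    ∑ x, φ (Additive.ofMul (D₁.c (Additive.toMul γ) x))
  rw [← Equiv.sum_comp e]
  simp_rw [hc, ofMul_mul, ofMul_inv, map_add, map_neg]
  rw [Finset.sum_add_distrib, Finset.sum_add_distrib, Finset.sum_neg_distrib,
    Equiv.sum_comp (D₁.σ (Additive.toMul γ)) (fun x => φ (Additive.ofMul (d x)))]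
  abel

/-! ### Composition -/

/-- composition of coset data: `D₁` from `Γ'` to `Γ`, `D₂` from `Γ''` to `Γ'` -/
def comp (D₁ : CosetData Γ Γ' ι) (D₂ : CosetData Γ' Γ'' κ) : CosetData Γ Γ'' (ι × κ) where
  σ γ :=
    { toFun := fun p => (D₁.σ γ p.1, D₂.σ (D₁.c γ p.1) p.2)
      invFun := fun p => ((D₁.σ γ).symm p.1, (D₂.σ (D₁.c γ ((D₁.σ γ).symm p.1))).symm p.2)
      left_inv := by
        rintro ⟨x, y⟩
        simp
      right_inv := by
        rintro ⟨x, y⟩
        simp }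
  c γ p := D₂.c (D₁.c γ p.1) p.2
  σ_mul := by
    rintro γ γ' ⟨x, y⟩
    show (D₁.σ (γ * γ') x, D₂.σ (D₁.c (γ * γ') x) y) =
      (D₁.σ γ' (D₁.σ γ x), D₂.σ (D₁.c γ' (D₁.σ γ x)) (D₂.σ (D₁.c γ x) y))
    rw [D₁.σ_mul, D₁.c_mul, D₂.σ_mul]
  c_mul := by
    rintro γ γ' ⟨x, y⟩
    show D₂.c (D₁.c (γ * γ') x) y =
      D₂.c (D₁.c γ x) y * D₂.c (D₁.c γ' (D₁.σ γ x)) (D₂.σ (D₁.c γ x) y)
    rw [D₁.c_mul, D₂.c_mul]

@[simp] theorem comp_c (D₁ : CosetData Γ Γ' ι) (D₂ : CosetData Γ' Γ'' κ) (γ : Γ) (p : ι × κ) :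
    (D₁.comp D₂).c γ p = D₂.c (D₁.c γ p.1) p.2 := rfl

@[simp] theorem comp_σ (D₁ : CosetData Γ Γ' ι) (D₂ : CosetData Γ' Γ'' κ) (γ : Γ) (p : ι × κ) :
    (D₁.comp D₂).σ γ p = (D₁.σ γ p.1, D₂.σ (D₁.c γ p.1) p.2) := rfl

theorem comp_op (D₁ : CosetData Γ Γ' ι) (D₂ : CosetData Γ' Γ'' κ)
    (A : Type*) [AddCommGroup A] :
    (D₁.comp D₂).op A = (D₁.op A).comp (D₂.op A) := by
  ext φ γ
  show ∑ p : ι × κ, φ (Additive.ofMul (D₂.c (D₁.c (Additive.toMul γ) p.1) p.2)) =
    ∑ x, ∑ y, φ (Additive.ofMul (D₂.c (D₁.c (Additive.toMul γ) x) y))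
  rw [Fintype.sum_prod_type]

/-! ### Basic examples -/

/-- the coset datum of a group homomorphism (pull-back) -/
def ofHom (f : Γ →* Γ') : CosetData Γ Γ' Unit where
  σ _ := Equiv.refl _
  c γ _ := f γ
  σ_mul _ _ _ := rfl
  c_mul γ γ' _ := map_mul f γ γ'

@[simp] theorem ofHom_op_apply (f : Γ →* Γ') {A : Type*} [AddCommGroup A]
    (φ : Additive Γ' →+ A) (γ : Γ) :
    (ofHom f).op A φ (Additive.ofMul γ) = φ (Additive.ofMul (f γ)) := by
  simp [ofHom]

end CosetData

end Fermat.Agent.S41lib.HC
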