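/-
S41lib / HC / Unique (helper1).
The left cosets `SL₂(ℤ) · heckeRep ℓ y`, `y ∈ P¹(𝔽_ℓ)`, are pairwise distinct, and the representative
`heckeRep ℓ y` determines the `SL₂(ℤ)`-factor: `c · h_y = c' · h_{y'} → y = y' ∧ c = c'`.
-/
import Mathlib
import Fermat.Agent.S16lib.LH.Cosets

set_option autoImplicit false
set_option linter.unusedSectionVars false

noncomputable section

namespace Fermat.Agent.S41lib.HC

open UpperHalfPlane Matrix.SpecialLinearGroup CongruenceSubgroup ModularForm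
open Fermat.Agent.S16lib.LH
open P2MW.S_ModularForm_heckeT_slash_eq_self_of_mem_Gamma0.ModularForm.HeckeSlashInvariance
open scoped MatrixGroups

variable {ℓ : ℕ} [Fact ℓ.Prime]

/-- the integer matrix of `heckeRep ℓ y` -/
def repInt (ℓ : ℕ) (y : OnePoint (ZMod ℓ)) : Matrix (Fin 2) (Fin 2) ℤ :=
  y.elim !![(ℓ : ℤ), 0; 0, 1] (fun j => !![1, (j.val : ℤ); 0, (ℓ : ℤ)])

@[simp] theorem repInt_infty : repInt ℓ OnePoint.infty = !![(ℓ : ℤ), 0; 0, 1] := rfl

@[simp] theorem repInt_coe (j : ZMod ℓ) :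
    repInt ℓ (j : OnePoint (ZMod ℓ)) = !![1, (j.val : ℤ); 0, (ℓ : ℤ)] := rfl

theorem coe_heckeRep (y : OnePoint (ZMod ℓ)) :
    ((heckeRep ℓ y : GL (Fin 2) ℝ) : Matrix (Fin 2) (Fin 2) ℝ) =
      (repInt ℓ y).map (Int.castRingHom ℝ) := by
  have hℓ : ℓ ≠ 0 := (Fact.out : ℓ.Prime).ne_zero
  induction y using OnePoint.rec with
  | infty =>
    rw [heckeRep_infty, val_heckeDiagMatrix hℓ, repInt_infty]
    ext i j
    fin_cases i <;> fin_cases j <;> simp
  | coe j =>
    rw [heckeRep_coe, val_heckeMatrix hℓ, repInt_coe]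
    ext i k
    fin_cases i <;> fin_cases k <;> simp

theorem det_repInt (y : OnePoint (ZMod ℓ)) : (repInt ℓ y).det = (ℓ : ℤ) := by
  induction y using OnePoint.rec with
  | infty => rw [repInt_infty, Matrix.det_fin_two_of]; ring
  | coe j => rw [repInt_coe, Matrix.det_fin_two_of]; ring

theorem coe_mapGL_int (g : SL(2, ℤ)) :
    ((mapGL ℝ g : GL (Fin 2) ℝ) : Matrix (Fin 2) (Fin 2) ℝ) =
      (g : Matrix (Fin 2) (Fin 2) ℤ).map (Int.castRingHom ℝ) := by
  rw [mapGL_coe_matrix]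
  rfl

/-- from `GL₂(ℝ)` to integer matrices -/
theorem int_eq_of_mapGL_mul_heckeRep {c c' : SL(2, ℤ)} {y y' : OnePoint (ZMod ℓ)}
    (h : (mapGL ℝ c : GL (Fin 2) ℝ) * heckeRep ℓ y = (mapGL ℝ c' : GL (Fin 2) ℝ) * heckeRep ℓ y') :
    (c : Matrix (Fin 2) (Fin 2) ℤ) * repInt ℓ y = (c' : Matrix (Fin 2) (Fin 2) ℤ) * repInt ℓ y' := by
  have h1 := congrArg (fun g : GL (Fin 2) ℝ => (g : Matrix (Fin 2) (Fin 2) ℝ)) h
  simp only [Units.val_mul] at h1
  rw [coe_mapGL_int, coe_mapGL_int, coe_heckeRep, coe_heckeRep, ← Matrix.map_mul,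
    ← Matrix.map_mul] at h1
  exact Matrix.map_injective (Int.cast_injective (α := ℝ)) h1

/-- key computation: `g · h_y = h_{y'}` with `g ∈ SL₂(ℤ)` forces `y = y'` and `g = 1` -/
theorem eq_of_mul_repInt_eq {g : SL(2, ℤ)} {y y' : OnePoint (ZMod ℓ)}
    (h : (g : Matrix (Fin 2) (Fin 2) ℤ) * repInt ℓ y = repInt ℓ y') : y = y' ∧ g = 1 := by
  have hℓ2 : (2 : ℤ) ≤ (ℓ : ℤ) := by exact_mod_cast (Fact.out : ℓ.Prime).two_le
  have hdet : g 0 0 * g 1 1 - g 0 1 * g 1 0 = 1 := det_eq g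
  have e00 := congrFun (congrFun h 0) 0
  have e01 := congrFun (congrFun h 0) 1
  have e10 := congrFun (congrFun h 1) 0
  have e11 := congrFun (congrFun h 1) 1
  induction y using OnePoint.rec with
  | infty =>
    induction y' using OnePoint.rec with
    | infty =>
      simp only [repInt_infty, Matrix.mul_apply, Fin.sum_univ_two, Matrix.of_apply,
        Matrix.cons_val', Matrix.cons_val_zero, Matrix.cons_val_one, Matrix.empty_val',
        Matrix.cons_val_fin_one] at e00 e01 e10 e11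
      refine ⟨rfl, ?_⟩
      have hℓ0 : (ℓ : ℤ) ≠ 0 := by omega
      have g00 : g 0 0 = 1 := by
        have : (ℓ : ℤ) * g 0 0 = (ℓ : ℤ) * 1 := by linarith
        exact mul_left_cancel₀ hℓ0 this
      have g10 : g 1 0 = 0 := by
        have : (ℓ : ℤ) * g 1 0 = (ℓ : ℤ) * 0 := by linarith
        exact mul_left_cancel₀ hℓ0 this
      have g01 : g 0 1 = 0 := by linarith
      have g11 : g 1 1 = 1 := by linarith
      ext i j
      fin_cases i <;> fin_cases j <;> simp [g00, g01, g10, g11]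
    | coe j' =>
      exfalso
      simp only [repInt_infty, repInt_coe, Matrix.mul_apply, Fin.sum_univ_two, Matrix.of_apply,
        Matrix.cons_val', Matrix.cons_val_zero, Matrix.cons_val_one, Matrix.empty_val',
        Matrix.cons_val_fin_one] at e00 e01 e10 e11
      have : (ℓ : ℤ) ∣ 1 := ⟨g 0 0, by linarith⟩
      have := Int.le_of_dvd one_pos this
      omega
  | coe j =>
    induction y' using OnePoint.rec with
    | infty =>
      exfalso
      simp only [repInt_infty, repInt_coe, Matrix.mul_apply, Fin.sum_univ_two, Matrix.of_apply,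
        Matrix.cons_val', Matrix.cons_val_zero, Matrix.cons_val_one, Matrix.empty_val',
        Matrix.cons_val_fin_one] at e00 e01 e10 e11
      have g10 : g 1 0 = 0 := by linarith
      have : (ℓ : ℤ) ∣ 1 := ⟨g 1 1, by rw [g10] at e11; linarith⟩
      have := Int.le_of_dvd one_pos this
      omega
    | coe j' =>
      simp only [repInt_coe, Matrix.mul_apply, Fin.sum_univ_two, Matrix.of_apply,
        Matrix.cons_val', Matrix.cons_val_zero, Matrix.cons_val_one, Matrix.empty_val',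
        Matrix.cons_val_fin_one] at e00 e01 e10 e11
      have hℓ0 : (ℓ : ℤ) ≠ 0 := by omega
      have g00 : g 0 0 = 1 := by linarith
      have g10 : g 1 0 = 0 := by linarith
      have g11 : g 1 1 = 1 := by
        rw [g10] at e11
        have : (ℓ : ℤ) * g 1 1 = (ℓ : ℤ) * 1 := by linarith
        exact mul_left_cancel₀ hℓ0 this
      have hj : (j.val : ℤ) + g 0 1 * (ℓ : ℤ) = (j'.val : ℤ) := by
        rw [g00] at e01
        linarith
      have hjlt : (j.val : ℤ) < ℓ := by exact_mod_cast ZMod.val_lt j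
      have hj'lt : (j'.val : ℤ) < ℓ := by exact_mod_cast ZMod.val_lt j'
      have hj0 : (0 : ℤ) ≤ (j.val : ℤ) := by positivity
      have hj'0 : (0 : ℤ) ≤ (j'.val : ℤ) := by positivity
      have g01 : g 0 1 = 0 := by
        by_contra hne
        rcases lt_or_gt_of_ne hne with hlt | hgt
        · have : g 0 1 * (ℓ : ℤ) ≤ -1 * (ℓ : ℤ) := by nlinarith
          linarith
        · have : 1 * (ℓ : ℤ) ≤ g 0 1 * (ℓ : ℤ) := by nlinarith
          linarith
      have hjj : (j.val : ℤ) = (j'.val : ℤ) := by rw [g01] at hj; linarith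
      have hval : j.val = j'.val := by exact_mod_cast hjj
      refine ⟨congrArg _ (ZMod.val_injective ℓ hval), ?_⟩
      ext i k
      fin_cases i <;> fin_cases k <;> simp [g00, g01, g10, g11]

/-- **Uniqueness of the coset decomposition.** -/
theorem heckeRep_coset_unique {c c' : SL(2, ℤ)} {y y' : OnePoint (ZMod ℓ)}
    (h : (mapGL ℝ c : GL (Fin 2) ℝ) * heckeRep ℓ y = (mapGL ℝ c' : GL (Fin 2) ℝ) * heckeRep ℓ y') :
    y = y' ∧ c = c' := by
  have h1 : (mapGL ℝ (c'⁻¹ * c) : GL (Fin 2) ℝ) * heckeRep ℓ y =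
      (mapGL ℝ (1 : SL(2, ℤ)) : GL (Fin 2) ℝ) * heckeRep ℓ y' := by
    rw [map_mul, map_inv, map_one, one_mul, mul_assoc, h, inv_mul_cancel_left]
  have h2 := int_eq_of_mapGL_mul_heckeRep h1
  rw [Matrix.SpecialLinearGroup.coe_one, Matrix.one_mul] at h2
  obtain ⟨hy, hg⟩ := eq_of_mul_repInt_eq h2
  exact ⟨hy, by rwa [inv_mul_eq_one, eq_comm] at hg⟩

end Fermat.Agent.S41lib.HC
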