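/-
S41lib / HC / Level (helper1).

The concrete coset data on `Γ = Γ₀(N)` and `Γ' = Γ₀(N q)` (`q` prime, `q ∤ N`) and the operators
`res, deg : H(Γ) → H(Γ')`, `coresA, coresB : H(Γ') → H(Γ)`, `w : H(Γ') → H(Γ')` (Atkin–Lehner),
`heckeT` on `H(Γ₀(M))`, where `H(Γ) = Hom(Γ, A)` for an arbitrary abelian group `A`; the identities
`coresA ∘ res = q + 1`, `coresA ∘ deg = T_q`, `w ∘ w = 1`, `w ∘ deg = res`, `w ∘ res = deg`,
`coresB ∘ deg = q + 1`, `coresB ∘ res = T_q`  (`coresB = coresA ∘ w`).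
-/
import Mathlib
import Fermat.Agent.S41lib.HC.CosetData
import Fermat.Agent.S41lib.HC.AtkinLehner
import Fermat.Agent.S41lib.HC.Unique
import Fermat.Agent.S31lib.PET.CosetA

set_option autoImplicit false
set_option linter.unusedSectionVars false

noncomputable section

namespace Fermat.Agent.S41lib.HC

open UpperHalfPlane Matrix.SpecialLinearGroup CongruenceSubgroup ModularForm
open Fermat.Agent.S16lib.LH Fermat.Agent.S29lib.H Fermat.Agent.S31lib.PET
open P2MW.S_ModularForm_heckeT_slash_eq_self_of_mem_Gamma0.ModularForm.HeckeSlashInvariance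
open scoped MatrixGroups

/-- `H(Γ; A) = Hom(Γ, A)` -/
abbrev H (Γ : Subgroup SL(2, ℤ)) (A : Type*) [AddCommGroup A] : Type _ := Additive Γ →+ A

/-- homomorphisms to an abelian group are invariant under conjugation -/
theorem hom_conj {G : Type*} [Group G] {A : Type*} [AddCommGroup A] (φ : Additive G →+ A)
    (a g : G) : φ (Additive.ofMul (a * g * a⁻¹)) = φ (Additive.ofMul g) := by
  rw [ofMul_mul, ofMul_mul, ofMul_inv, map_add, map_add, map_neg]
  abel

theorem hom_conj' {G : Type*} [Group G] {A : Type*} [AddCommGroup A] (φ : Additive G →+ A)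
    (a g : G) : φ (Additive.ofMul (a⁻¹ * g * a)) = φ (Additive.ofMul g) := by
  have := hom_conj φ a⁻¹ g
  rwa [inv_inv] at this

/-! ### The Hecke operator `T_ℓ` on `H(Γ₀(M))`, `ℓ ∤ M` -/

section T

variable {M ℓ : ℕ} [Fact ℓ.Prime] (hℓM : ¬ ℓ ∣ M)

/-- the coset datum of `T_ℓ` -/
def tData : CosetData ↥(Gamma0 M) ↥(Gamma0 M) (OnePoint (ZMod ℓ)) where
  σ := tPerm ℓ
  c := tCoc hℓM
  σ_mul := tPerm_mul
  c_mul := (tDatum hℓM).c_mul

@[simp] theorem tData_σ (γ : ↥(Gamma0 M)) : (tData hℓM).σ γ = tPerm ℓ γ := rfl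
@[simp] theorem tData_c (γ : ↥(Gamma0 M)) (y : OnePoint (ZMod ℓ)) :
    (tData hℓM).c γ y = tCoc hℓM γ y := rfl

/-- `T_ℓ` on `Hom(Γ₀(M), A)` -/
def heckeT (A : Type*) [AddCommGroup A] : H (Gamma0 M) A →+ H (Gamma0 M) A := (tData hℓM).op A

theorem heckeT_apply {A : Type*} [AddCommGroup A] (φ : H (Gamma0 M) A) (γ : ↥(Gamma0 M)) :
    heckeT hℓM A φ (Additive.ofMul γ) = ∑ y, φ (Additive.ofMul (tCoc hℓM γ y)) := rfl

/-- uniqueness: `h_y γ = c h_{y'}` with `c ∈ SL₂(ℤ)` forces `y' = y · γ` and `c = tCoc γ y` -/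
theorem tCoc_unique (γ : ↥(Gamma0 M)) (y y' : OnePoint (ZMod ℓ)) (c : SL(2, ℤ))
    (h : heckeRep ℓ y * (mapGL ℝ (γ : SL(2, ℤ)) : GL (Fin 2) ℝ) =
      (mapGL ℝ c : GL (Fin 2) ℝ) * heckeRep ℓ y') :
    y' = tPerm ℓ γ y ∧ c = ((tCoc hℓM γ y : ↥(Gamma0 M)) : SL(2, ℤ)) := by
  have h1 := tCoc_rel hℓM γ y
  rw [h] at h1
  exact heckeRep_coset_unique h1

end T

/-! ### Restriction, conjugation by `δ`, transfer -/

section Level

variable {N q : ℕ} [NeZero N] [Fact q.Prime] (hqN : ¬ q ∣ N)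

/-- `γ' ↦ δ γ' δ⁻¹`, `Γ₀(N q) → Γ₀(N)` -/
def conjDelta : ↥(Gamma0 (N * q)) →* ↥(Gamma0 N) :=
  MonoidHom.mk' (fun γ' => tCoc hqN (inclMul N q γ') OnePoint.infty) (by
    intro a b
    have h := (tDatum hqN).c_mul (inclMul N q a) (inclMul N q b) OnePoint.infty
    simp only [tDatum_c, tDatum_σ, tPerm_inclMul] at h
    rw [map_mul]
    exact h)

theorem conjDelta_rel (γ' : ↥(Gamma0 (N * q))) :
    heckeDiagMatrix q * (mapGL ℝ (γ' : SL(2, ℤ)) : GL (Fin 2) ℝ) =
      (mapGL ℝ ((conjDelta hqN γ' : ↥(Gamma0 N)) : SL(2, ℤ)) : GL (Fin 2) ℝ) *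
        heckeDiagMatrix q :=
  heckeDiag_mul_inclMul hqN γ'

variable (N q) in
/-- restriction `H(Γ₀(N)) → H(Γ₀(N q))` -/
def res (A : Type*) [AddCommGroup A] : H (Gamma0 N) A →+ H (Gamma0 (N * q)) A :=
  (CosetData.ofHom (inclMul N q)).op A

/-- the second degeneracy map `φ ↦ φ ∘ (δ · δ⁻¹)`, `H(Γ₀(N)) → H(Γ₀(N q))` -/
def deg (A : Type*) [AddCommGroup A] : H (Gamma0 N) A →+ H (Gamma0 (N * q)) A :=
  (CosetData.ofHom (conjDelta hqN)).op A

@[simp] theorem res_apply {A : Type*} [AddCommGroup A] (φ : H (Gamma0 N) A)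
    (γ' : ↥(Gamma0 (N * q))) :
    res N q A φ (Additive.ofMul γ') = φ (Additive.ofMul (inclMul N q γ')) :=
  CosetData.ofHom_op_apply _ φ γ'

@[simp] theorem deg_apply {A : Type*} [AddCommGroup A] (φ : H (Gamma0 N) A)
    (γ' : ↥(Gamma0 (N * q))) :
    deg hqN A φ (Additive.ofMul γ') = φ (Additive.ofMul (conjDelta hqN γ')) :=
  CosetData.ofHom_op_apply _ φ γ'

/-- the coset datum of the transfer `H(Γ₀(N q)) → H(Γ₀(N))` (representatives `g_x = alphaRep x`) -/
def coresAData : CosetData ↥(Gamma0 N) ↥(Gamma0 (N * q)) (OnePoint (ZMod q)) where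
  σ := tPerm q
  c γ x := ⟨((alphaCoc hqN γ x : ↥(Gamma0 N)) : SL(2, ℤ)), alphaCoc_mem hqN γ x⟩
  σ_mul := tPerm_mul
  c_mul := by
    intro γ γ' x
    apply Subtype.ext
    show ((alphaCoc hqN (γ * γ') x : ↥(Gamma0 N)) : SL(2, ℤ)) =
      ((alphaCoc hqN γ x : ↥(Gamma0 N)) : SL(2, ℤ)) *
        ((alphaCoc hqN γ' (tPerm q γ x) : ↥(Gamma0 N)) : SL(2, ℤ))
    rw [← Subgroup.coe_mul]
    congr 1
    simp only [alphaCoc, tPerm_mul]
    group

theorem inclMul_coresAData_c (γ : ↥(Gamma0 N)) (x : OnePoint (ZMod q)) :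
    inclMul N q ((coresAData hqN).c γ x) = alphaCoc hqN γ x := rfl

/-- the transfer `H(Γ₀(N q)) → H(Γ₀(N))` -/
def coresA (A : Type*) [AddCommGroup A] : H (Gamma0 (N * q)) A →+ H (Gamma0 N) A :=
  (coresAData hqN).op A

theorem coresA_apply {A : Type*} [AddCommGroup A] (φ : H (Gamma0 (N * q)) A) (γ : ↥(Gamma0 N)) :
    coresA hqN A φ (Additive.ofMul γ) =
      ∑ x, φ (Additive.ofMul ((coresAData hqN).c γ x)) := rfl

theorem card_onePoint_zmod : Fintype.card (OnePoint (ZMod q)) = q + 1 := by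
  have : Fintype.card (OnePoint (ZMod q)) = Fintype.card (Option (ZMod q)) := rfl
  rw [this, Fintype.card_option, ZMod.card]

/-- `cores ∘ res = [Γ₀(N) : Γ₀(N q)] = q + 1` -/
theorem coresA_res {A : Type*} [AddCommGroup A] (φ : H (Gamma0 N) A) :
    coresA hqN A (res N q A φ) = (q + 1) • φ := by
  ext γ
  show ∑ x, res N q A φ (Additive.ofMul ((coresAData hqN).c γ x)) = ((q + 1) • φ) (Additive.ofMul γ)
  simp_rw [res_apply, inclMul_coresAData_c, alphaCoc, ofMul_mul, ofMul_inv, map_add, map_neg]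
  rw [Finset.sum_add_distrib, Finset.sum_add_distrib, Finset.sum_neg_distrib,
    Equiv.sum_comp (tPerm q γ) (fun x => φ (Additive.ofMul (alphaRep hqN x))),
    Finset.sum_const, Finset.card_univ, card_onePoint_zmod, AddMonoidHom.smul_apply]
  abel

/-- `cores ∘ deg = T_q` -/
theorem coresA_deg {A : Type*} [AddCommGroup A] (φ : H (Gamma0 N) A) :
    coresA hqN A (deg hqN A φ) = heckeT hqN A φ := by
  have key : ((coresAData hqN).comp (CosetData.ofHom (conjDelta hqN))).op A = (tData hqN).op A := by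
    refine CosetData.op_eq_of_conj (tData hqN) _ (Equiv.prodPUnit _).symm
      (fun x => tCoc hqN (alphaRep hqN x) OnePoint.infty) ?_ A
    intro γ x
    show conjDelta hqN ((coresAData hqN).c γ x) =
      tCoc hqN (alphaRep hqN x) OnePoint.infty * tCoc hqN γ x *
        (tCoc hqN (alphaRep hqN (tPerm q γ x)) OnePoint.infty)⁻¹
    apply Subtype.ext
    apply mapGL_injective (S := ℝ)
    apply mul_right_cancel (b := heckeDiagMatrix q)
    rw [← conjDelta_rel]
    show heckeDiagMatrix q * (mapGL ℝ ((alphaCoc hqN γ x : ↥(Gamma0 N)) : SL(2, ℤ)) : GL (Fin 2) ℝ) = _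
    have h1 := heckeDiag_mul_alphaRep hqN x
    have h2 := heckeDiag_mul_alphaRep hqN (tPerm q γ x)
    have h3 := tCoc_rel hqN γ x
    simp only [alphaCoc, Subgroup.coe_mul, Subgroup.coe_inv, map_mul, map_inv]
    rw [← mul_assoc, ← mul_assoc, h1, mul_assoc _ (heckeRep q x), h3, mul_assoc, mul_assoc,
      mul_assoc, mul_assoc]
    congr 2
    rw [mul_inv_eq_iff_eq_mul, mul_assoc, h2, inv_mul_cancel_left]
  have := congrArg (fun F => F φ) key
  rw [CosetData.comp_op] at this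
  exact this

end Level

end Fermat.Agent.S41lib.HC
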