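/-
S41lib / HC / Bridge (helper1).

The general bridge between operators on cusp forms of weight 2 given by a finite sum of slashes
`f' = ∑ x, f ∣[2] r x` and the operators `CosetData.op` on `Hom(Γ, ℂ)`, through the prelude's
Eichler–Shimura map `periodHomPair`:  `D.op (periodHomPair M (f, g)) = periodHomPair N (f', g')`.
-/
import Mathlib
import Fermat.Agent.S41lib.HC.Level
import Fermat.Agent.S16lib.LH.Equivariance

set_option autoImplicit false
set_option linter.unusedSectionVars false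

noncomputable section

namespace Fermat.Agent.S41lib.HC

open UpperHalfPlane Filter Topology CongruenceSubgroup Matrix.SpecialLinearGroup ModularForm
open ModularCurve ModularCurve.Period Fermat.Agent.TeamB Fermat.Agent.ProgramR.ES
open Fermat.Agent.S16lib.LH
open scoped MatrixGroups ModularForm Manifold

variable {N M : ℕ} [NeZero N] [NeZero M] {ι : Type*} [Fintype ι]
  (D : CosetData ↥(Gamma0 N) ↥(Gamma0 M) ι) (r r' : ι → GL (Fin 2) ℝ)
  (hr : ∀ (γ : ↥(Gamma0 N)) (x : ι), r x * (mapGL ℝ (γ : SL(2, ℤ)) : GL (Fin 2) ℝ) =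
    (mapGL ℝ ((D.c γ x : ↥(Gamma0 M)) : SL(2, ℤ)) : GL (Fin 2) ℝ) * r (D.σ γ x))

include hr in
/-- **Potential lemma** (two levels). -/
theorem sum_potential₂ (G : ℍ → ℂ) (φ : H (Gamma0 M) ℂ)
    (hG : ∀ (δ : ↥(Gamma0 M)) (z : ℍ), G ((δ : SL(2, ℤ)) • z) - G z = φ (Additive.ofMul δ))
    (γ : ↥(Gamma0 N)) (z : ℍ) :
    (∑ x, G (r x • ((γ : SL(2, ℤ)) • z))) - ∑ x, G (r x • z) = D.op ℂ φ (Additive.ofMul γ) := by
  have key : ∀ x, G (r x • ((γ : SL(2, ℤ)) • z)) =
      G (r (D.σ γ x) • z) + φ (Additive.ofMul (D.c γ x)) := by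
    intro x
    have h1 : r x • ((γ : SL(2, ℤ)) • z) =
        ((D.c γ x : ↥(Gamma0 M)) : SL(2, ℤ)) • (r (D.σ γ x) • z) := by
      show r x • ((mapGL ℝ (γ : SL(2, ℤ)) : GL (Fin 2) ℝ) • z) =
        (mapGL ℝ ((D.c γ x : ↥(Gamma0 M)) : SL(2, ℤ)) : GL (Fin 2) ℝ) • (r (D.σ γ x) • z)
      rw [← mul_smul, ← mul_smul, hr γ x]
    rw [h1]
    have := hG (D.c γ x) (r (D.σ γ x) • z)
    linear_combination this
  simp_rw [key]
  rw [Finset.sum_add_distrib, Equiv.sum_comp (D.σ γ) (fun x => G (r x • z)), CosetData.op_apply]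
  ring

/-- the sum of the translates of `prim f` differs from `prim f'` by a constant, if
`f' = ∑ x, f ∣[2] r x` -/
theorem sum_prim_sub_const (hdet : ∀ x, 0 < (r x).det.val)
    (f : CuspForm (Gamma0 M) 2) (f' : CuspForm (Gamma0 N) 2)
    (hf : ⇑f' = ∑ x, ⇑f ∣[(2 : ℤ)] r x) (z w : ℍ) :
    (∑ x, prim f (r x • z)) - prim f' z = (∑ x, prim f (r x • w)) - prim f' w := by
  have h1 : HasDerivH (fun z => ∑ x, prim f (r x • z)) (⇑f') := by
    rw [hf]
    exact hasDerivH_finset_sum Finset.univ _ _ fun x _ =>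
      hasDerivH_comp_smul (prim_hasDerivH f) (hdet x)
  exact sub_const_of_hasDerivH h1 (prim_hasDerivH f') z w

include hr in
/-- **The bridge.** -/
theorem periodHomPair_op (hdet : ∀ x, 0 < (r x).det.val) (hdet' : ∀ x, 0 < (r' x).det.val)
    (hJ : ∀ x, r' x * J = J * r x)
    (f g : CuspForm (Gamma0 M) 2) (f' g' : CuspForm (Gamma0 N) 2)
    (hf : ⇑f' = ∑ x, ⇑f ∣[(2 : ℤ)] r x) (hf' : ⇑f' = ∑ x, ⇑f ∣[(2 : ℤ)] r' x)
    (hg : ⇑g' = ∑ x, ⇑g ∣[(2 : ℤ)] r x) (hg' : ⇑g' = ∑ x, ⇑g ∣[(2 : ℤ)] r' x) :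
    D.op ℂ (periodHomPair M (f, g)) = periodHomPair N (f', g') := by
  ext γ
  show D.op ℂ (periodHomPair M (f, g)) (Additive.ofMul γ) =
    periodHomPair N (f', g') (Additive.ofMul γ)
  rw [← sum_potential₂ D r hr (pairPotential f g) (periodHomPair M (f, g))
    (pairPotential_spec f g) γ UpperHalfPlane.I, ← pairPotential_spec f' g' γ UpperHalfPlane.I]
  have hJr : ∀ (x : ι) (v : ℍ), J • (r x • v) = r' x • (J • v) := by
    intro x v
    rw [← mul_smul, ← mul_smul, hJ x]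
  have key : ∀ v : ℍ, (∑ x, pairPotential f g (r x • v)) - pairPotential f' g' v =
      (∑ x, pairPotential f g (r x • UpperHalfPlane.I)) - pairPotential f' g' UpperHalfPlane.I := by
    intro v
    have a1 := sum_prim_sub_const r hdet f f' hf v UpperHalfPlane.I
    have a2 := sum_prim_sub_const r hdet g g' hg v UpperHalfPlane.I
    have b1 := sum_prim_sub_const r' hdet' f f' hf' (J • v) (J • UpperHalfPlane.I)
    have b2 := sum_prim_sub_const r' hdet' g g' hg' (J • v) (J • UpperHalfPlane.I)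
    simp only [pairPotential, hJr, Finset.sum_add_distrib, Finset.sum_sub_distrib]
    linear_combination a1 + a2 + b1 - b2
  have := key ((γ : SL(2, ℤ)) • UpperHalfPlane.I)
  linear_combination this

end Fermat.Agent.S41lib.HC
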