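/-
S41lib / HC / Cycle (helper1).

The cycle lemma for the operators of `CosetData`: `(op φ)(γ) = ∑ x, φ (c γ x)` decomposes along the
cycles of the permutation `σ γ`, and the sum over a cycle of length `m` through `x` is
`φ (c (γ ^ m) x)`.  Hence `(op φ)(γ) = 0` as soon as `φ` kills all the `c (γ ^ m) x` with
`σ (γ ^ m) x = x`  (valid for every coefficient group, torsion or not).
-/
import Mathlib
import Fermat.Agent.S41lib.HC.CosetData

set_option autoImplicit false
set_option linter.unusedSectionVars false

noncomputable section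

namespace Fermat.Agent.S41lib.HC

/-- A function on a finite set whose sums along all closed paths of a permutation `τ` vanish has
total sum zero. -/
theorem sum_eq_zero_of_cycle_sums {ι A : Type*} [Fintype ι] [AddCommMonoid A]
    (τ : Equiv.Perm ι) (f : ι → A)
    (h : ∀ (x : ι) (m : ℕ), 0 < m → (τ ^ m) x = x →
      ∑ j ∈ Finset.range m, f ((τ ^ j) x) = 0) :
    ∑ x, f x = 0 := by
  classical
  have key : ∀ (n : ℕ) (s : Finset ι), s.card = n → (∀ y ∈ s, τ y ∈ s) →
      ∑ x ∈ s, f x = 0 := by
    intro n
    induction n using Nat.strong_induction_on with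
    | _ n ih =>
      intro s hs hinv
      rcases s.eq_empty_or_nonempty with rfl | ⟨x, hx⟩
      · simp
      set m := Function.minimalPeriod τ x with hm_def
      have hper : x ∈ Function.periodicPts τ := by
        have hfin : IsOfFinOrder τ := isOfFinOrder_of_finite τ
        refine Function.mk_mem_periodicPts hfin.orderOf_pos ?_
        show τ^[orderOf τ] x = x
        rw [Equiv.Perm.iterate_eq_pow, pow_orderOf_eq_one]
        rfl
      have hm : 0 < m := Function.minimalPeriod_pos_of_mem_periodicPts hper
      have hmx : (τ ^ m) x = x := by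
        have := Function.isPeriodicPt_minimalPeriod τ x
        rw [Function.IsPeriodicPt, Function.IsFixedPt, Equiv.Perm.iterate_eq_pow] at this
        exact this
      have hpow_mem : ∀ j : ℕ, (τ ^ j) x ∈ s := by
        intro j
        induction j with
        | zero => simpa using hx
        | succ j ihj =>
          rw [pow_succ', Equiv.Perm.mul_apply]
          exact hinv _ ihj
      set O : Finset ι := (Finset.range m).image (fun j => (τ ^ j) x) with hO_def
      have hO : O ⊆ s := by
        intro y hy
        rw [hO_def, Finset.mem_image] at hy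
        obtain ⟨j, _, rfl⟩ := hy
        exact hpow_mem j
      have hxO : x ∈ O := by
        rw [hO_def, Finset.mem_image]
        exact ⟨0, Finset.mem_range.mpr hm, by simp⟩
      have hOinv : ∀ y ∈ s \ O, τ y ∈ s \ O := by
        intro y hy
        rw [Finset.mem_sdiff] at hy ⊢
        refine ⟨hinv y hy.1, ?_⟩
        intro hτy
        apply hy.2
        rw [hO_def, Finset.mem_image] at hτy ⊢
        obtain ⟨j, hj, hjy⟩ := hτy
        rw [Finset.mem_range] at hj
        rcases j with _ | j
        · refine ⟨m - 1, Finset.mem_range.mpr (by omega), ?_⟩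
          apply τ.injective
          rw [← Equiv.Perm.mul_apply, ← pow_succ', Nat.sub_add_cancel hm, hmx]
          simpa using hjy
        · refine ⟨j, Finset.mem_range.mpr (by omega), ?_⟩
          apply τ.injective
          rw [← Equiv.Perm.mul_apply, ← pow_succ']
          exact hjy
      have hsumO : ∑ y ∈ O, f y = 0 := by
        rw [hO_def, Finset.sum_image]
        · exact h x m hm hmx
        · intro i hi j hj hij
          have hi' : i ∈ Set.Iio (Function.minimalPeriod τ x) := Finset.mem_range.mp hi
          have hj' : j ∈ Set.Iio (Function.minimalPeriod τ x) := Finset.mem_range.mp hj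
          refine Function.iterate_injOn_Iio_minimalPeriod hi' hj' ?_
          show τ^[i] x = τ^[j] x
          rw [Equiv.Perm.iterate_eq_pow, Equiv.Perm.iterate_eq_pow]
          exact hij
      rw [← Finset.sum_sdiff hO, hsumO, add_zero]
      have hcard : (s \ O).card < n := by
        rw [← hs]
        exact Finset.card_lt_card (Finset.sdiff_ssubset hO ⟨x, hxO⟩)
      exact ih _ hcard _ rfl hOinv
  have := key _ Finset.univ rfl (fun y _ => Finset.mem_univ _)
  exact this

namespace CosetData

variable {Γ Γ' : Type*} [Group Γ] [Group Γ'] {ι : Type*} (D : CosetData Γ Γ' ι)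

theorem σ_one : D.σ 1 = 1 := by
  ext x
  have h := D.σ_mul 1 1 x
  rw [mul_one] at h
  exact ((D.σ 1).injective h).symm

theorem c_one (x : ι) : D.c 1 x = 1 := by
  have h := D.c_mul 1 1 x
  rw [mul_one, σ_one] at h
  exact (mul_eq_left.mp h.symm)

theorem σ_mul' (γ γ' : Γ) : D.σ (γ * γ') = D.σ γ' * D.σ γ := by
  ext x
  exact D.σ_mul γ γ' x

theorem σ_pow (γ : Γ) (m : ℕ) : D.σ (γ ^ m) = D.σ γ ^ m := by
  induction m with
  | zero => rw [pow_zero, pow_zero, σ_one]
  | succ m ih => rw [pow_succ, σ_mul', ih, pow_succ']

/-- `φ (c (γ ^ m) x)` is the sum of `φ ∘ c γ` along the path `x, σ γ x, …` of length `m`. -/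
theorem map_c_pow {A : Type*} [AddCommGroup A] (φ : Additive Γ' →+ A) (γ : Γ) (m : ℕ) (x : ι) :
    φ (Additive.ofMul (D.c (γ ^ m) x)) =
      ∑ j ∈ Finset.range m, φ (Additive.ofMul (D.c γ ((D.σ γ ^ j) x))) := by
  induction m with
  | zero => simp [c_one]
  | succ m ih =>
    rw [pow_succ, D.c_mul, ofMul_mul, map_add, ih, Finset.sum_range_succ, σ_pow]

/-- **Cycle lemma**: `(op φ)(γ) = 0` if `φ` kills `c (γ ^ m) x` whenever `σ (γ ^ m)` fixes `x`. -/
theorem op_apply_eq_zero [Fintype ι] {A : Type*} [AddCommGroup A] (φ : Additive Γ' →+ A) (γ : Γ)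
    (h : ∀ (x : ι) (m : ℕ), 0 < m → D.σ (γ ^ m) x = x →
      φ (Additive.ofMul (D.c (γ ^ m) x)) = 0) :
    D.op A φ (Additive.ofMul γ) = 0 := by
  rw [op_apply]
  refine sum_eq_zero_of_cycle_sums (D.σ γ) (fun x => φ (Additive.ofMul (D.c γ x))) ?_
  intro x m hm hx
  rw [← map_c_pow]
  exact h x m hm (by rw [σ_pow]; exact hx)

end CosetData

end Fermat.Agent.S41lib.HC
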