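/-
S41lib / HC / LevelAL (helper1).

The Atkin–Lehner operator `w` on `H(Γ₀(N q))` (pull-back along `γ ↦ W⁻¹ γ W`,
`W = (q x, y; N q z, q w)`, `q x w - N y z = 1`), with `w ∘ w = 1`, `w ∘ deg = res`, `w ∘ res = deg`,
and the second transfer `coresB = coresA ∘ w` with `coresB ∘ deg = q + 1`, `coresB ∘ res = T_q`.
-/
import Mathlib
import Fermat.Agent.S41lib.HC.Level

set_option autoImplicit false
set_option linter.unusedSectionVars false

noncomputable section

namespace Fermat.Agent.S41lib.HC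

open UpperHalfPlane Matrix.SpecialLinearGroup CongruenceSubgroup ModularForm
open Fermat.Agent.S16lib.LH Fermat.Agent.S29lib.H Fermat.Agent.S31lib.PET
open P2MW.S_ModularForm_heckeT_slash_eq_self_of_mem_Gamma0.ModularForm.HeckeSlashInvariance
open scoped MatrixGroups

section Params

variable {N ℓ : ℕ} [NeZero ℓ] (x y z w : ℤ) (h : (ℓ : ℤ) * x * w - (N : ℤ) * y * z = 1)

/-- `a = (x, y; N z, ℓ w) ∈ Γ₀(N)`, so that `W = a δ` -/
def alA : ↥(Gamma0 N) :=
  ⟨⟨!![x, y; (N : ℤ) * z, (ℓ : ℤ) * w], by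
    rw [Matrix.det_fin_two_of]
    linear_combination h⟩, by
    rw [Gamma0_mem]
    show (((N : ℤ) * z : ℤ) : ZMod N) = 0
    simp⟩

theorem alGL_eq_alA_mul : alGL x y z w h =
    (mapGL ℝ ((alA x y z w h : ↥(Gamma0 N)) : SL(2, ℤ)) : GL (Fin 2) ℝ) * heckeDiagMatrix ℓ := by
  have hℓ0 : ℓ ≠ 0 := NeZero.ne ℓ
  apply Units.ext
  rw [Units.val_mul]
  show ((alGL x y z w h : GL (Fin 2) ℝ) : Matrix (Fin 2) (Fin 2) ℝ) =
    ((mapGL ℝ ((alA x y z w h : ↥(Gamma0 N)) : SL(2, ℤ)) : GL (Fin 2) ℝ) :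
      Matrix (Fin 2) (Fin 2) ℝ) * ((heckeDiagMatrix ℓ : GL (Fin 2) ℝ) : Matrix (Fin 2) (Fin 2) ℝ)
  rw [coe_alGL, coe_mapGL_eq, val_heckeDiagMatrix hℓ0]
  ext i j
  fin_cases i <;> fin_cases j <;>
    simp [alMat, alA, Matrix.mul_apply, Fin.sum_univ_two] <;> ring

end Params

section AL

variable {N q : ℕ} [NeZero N] [Fact q.Prime] (hqN : ¬ q ∣ N)
  (x y z w : ℤ) (h : (q : ℤ) * x * w - (N : ℤ) * y * z = 1)

/-- the parameters of an Atkin–Lehner matrix exist when `q ∤ N` -/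
theorem exists_al_params (hqN : ¬ q ∣ N) :
    ∃ x y z w : ℤ, (q : ℤ) * x * w - (N : ℤ) * y * z = 1 := by
  have hcop : IsCoprime (q : ℤ) (N : ℤ) :=
    Nat.isCoprime_iff_coprime.mpr ((Nat.Prime.coprime_iff_not_dvd Fact.out).mpr hqN)
  obtain ⟨u, v, huv⟩ := hcop
  exact ⟨u, -v, 1, 1, by linear_combination huv⟩

/-- the Atkin–Lehner operator on `H(Γ₀(N q))` -/
def alW (A : Type*) [AddCommGroup A] : H (Gamma0 (N * q)) A →+ H (Gamma0 (N * q)) A :=
  (CosetData.ofHom (alConjMulEquiv x y z w h).toMonoidHom).op A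

@[simp] theorem alW_apply {A : Type*} [AddCommGroup A] (φ : H (Gamma0 (N * q)) A)
    (γ' : ↥(Gamma0 (N * q))) :
    alW x y z w h A φ (Additive.ofMul γ') = φ (Additive.ofMul (alConj x y z w h γ')) :=
  CosetData.ofHom_op_apply _ φ γ'

/-- `w ∘ w = 1` -/
theorem alW_alW {A : Type*} [AddCommGroup A] (φ : H (Gamma0 (N * q)) A) :
    alW x y z w h A (alW x y z w h A φ) = φ := by
  ext γ'
  show alW x y z w h A (alW x y z w h A φ) (Additive.ofMul γ') = φ (Additive.ofMul γ')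
  rw [alW_apply, alW_apply, alConj_alConj, hom_conj']

/-- `δ (W⁻¹ γ' W) δ⁻¹ = a⁻¹ γ' a` -/
theorem conjDelta_alConj (γ' : ↥(Gamma0 (N * q))) :
    conjDelta hqN (alConj x y z w h γ') =
      (alA x y z w h)⁻¹ * inclMul N q γ' * alA x y z w h := by
  apply Subtype.ext
  apply mapGL_injective (S := ℝ)
  apply mul_right_cancel (b := heckeDiagMatrix q)
  rw [← conjDelta_rel]
  have h1 := alGL_mul_alConj x y z w h γ'
  rw [alGL_eq_alA_mul x y z w h] at h1
  simp only [Subgroup.coe_mul, Subgroup.coe_inv, coe_inclMul, map_mul, map_inv]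
  rw [mul_assoc, mul_assoc, eq_inv_mul_iff_mul_eq, ← mul_assoc]
  exact h1

/-- `w ∘ deg = res` -/
theorem alW_deg {A : Type*} [AddCommGroup A] (φ : H (Gamma0 N) A) :
    alW x y z w h A (deg hqN A φ) = res N q A φ := by
  ext γ'
  show alW x y z w h A (deg hqN A φ) (Additive.ofMul γ') = res N q A φ (Additive.ofMul γ')
  rw [alW_apply, deg_apply, res_apply, conjDelta_alConj, hom_conj']

/-- `w ∘ res = deg` -/
theorem alW_res {A : Type*} [AddCommGroup A] (φ : H (Gamma0 N) A) :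
    alW x y z w h A (res N q A φ) = deg hqN A φ := by
  rw [← alW_deg hqN x y z w h φ, alW_alW]

/-- the second transfer `H(Γ₀(N q)) → H(Γ₀(N))`, adjoint to `deg` -/
def coresB (A : Type*) [AddCommGroup A] : H (Gamma0 (N * q)) A →+ H (Gamma0 N) A :=
  (coresA hqN A).comp (alW x y z w h A)

theorem coresB_def {A : Type*} [AddCommGroup A] (φ : H (Gamma0 (N * q)) A) :
    coresB hqN x y z w h A φ = coresA hqN A (alW x y z w h A φ) := rfl

/-- `coresB ∘ deg = q + 1` -/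
theorem coresB_deg {A : Type*} [AddCommGroup A] (φ : H (Gamma0 N) A) :
    coresB hqN x y z w h A (deg hqN A φ) = (q + 1) • φ := by
  rw [coresB_def, alW_deg, coresA_res]

/-- `coresB ∘ res = T_q` -/
theorem coresB_res {A : Type*} [AddCommGroup A] (φ : H (Gamma0 N) A) :
    coresB hqN x y z w h A (res N q A φ) = heckeT hqN A φ := by
  rw [coresB_def, alW_res hqN, coresA_deg]

end AL

end Fermat.Agent.S41lib.HC
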