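/-
S41lib / HC / Parabolic (helper1).

The operators `res, deg, w, heckeT, coresA, coresB` preserve parabolic homomorphisms
(`ModularCurve.Period.IsParabolicHom`) and homomorphisms killing the parabolic and the finite order
elements (`S16lib.LG.parHomsM _ IsParTor _`), for every coefficient group.

General form: a coset datum `D` between subgroups of `SL₂(ℤ)` with representatives
`r : ι → GL₂(ℝ)`, `r x * γ = c γ x * r (σ γ x)`; then `c (γ ^ m) x` is `GL₂(ℝ)`-conjugate to `γ ^ m`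
whenever `σ (γ ^ m)` fixes `x`, and the cycle lemma applies.
-/
import Mathlib
import Fermat.Agent.S41lib.HC.Cycle
import Fermat.Agent.S41lib.HC.LevelAL
import Fermat.Agent.S16lib.LG.Shimura

set_option autoImplicit false
set_option linter.unusedSectionVars false

noncomputable section

namespace Fermat.Agent.S41lib.HC

open UpperHalfPlane Matrix.SpecialLinearGroup CongruenceSubgroup ModularForm
open Fermat.Agent.S16lib.LH Fermat.Agent.S29lib.H Fermat.Agent.S31lib.PET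
open Fermat.Agent.ProgramR.ES Fermat.Agent.S16lib.LG ModularCurve.Period
open P2MW.S_ModularForm_heckeT_slash_eq_self_of_mem_Gamma0.ModularForm.HeckeSlashInvariance
open scoped MatrixGroups

/-! ### Powers of parabolic elements -/

theorem isPar_pow (g : SL(2, ℤ)) (hg : IsPar g) (m : ℕ) : IsPar (g ^ m) := by
  unfold IsPar at hg ⊢
  rw [Matrix.SpecialLinearGroup.coe_pow]
  set M : Matrix (Fin 2) (Fin 2) ℤ := (g : Matrix (Fin 2) (Fin 2) ℤ) with hM
  have hdet : M.det = 1 := g.det_coe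
  set t := M.trace with ht
  have hCH : M * M = t • M - 1 := by
    rw [Matrix.det_fin_two] at hdet
    rw [Matrix.trace_fin_two] at ht
    ext i j
    fin_cases i <;> fin_cases j
    · simp only [Matrix.mul_apply, Fin.sum_univ_two, Matrix.sub_apply, Matrix.smul_apply,
        smul_eq_mul, Fin.zero_eta, Fin.isValue, Matrix.one_apply_eq]
      rw [ht]
      linear_combination (-1 : ℤ) * hdet
    · simp only [Matrix.mul_apply, Fin.sum_univ_two, Matrix.sub_apply, Matrix.smul_apply,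
        smul_eq_mul, Fin.zero_eta, Fin.mk_one, Fin.isValue, ne_eq, zero_ne_one, not_false_eq_true,
        Matrix.one_apply_ne, sub_zero]
      rw [ht]
      ring
    · simp only [Matrix.mul_apply, Fin.sum_univ_two, Matrix.sub_apply, Matrix.smul_apply,
        smul_eq_mul, Fin.zero_eta, Fin.mk_one, Fin.isValue, ne_eq, one_ne_zero, not_false_eq_true,
        Matrix.one_apply_ne, sub_zero]
      rw [ht]
      ring
    · simp only [Matrix.mul_apply, Fin.sum_univ_two, Matrix.sub_apply, Matrix.smul_apply,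
        smul_eq_mul, Fin.mk_one, Fin.isValue, Matrix.one_apply_eq]
      rw [ht]
      linear_combination (-1 : ℤ) * hdet
  have hrec : ∀ k : ℕ, (M ^ (k + 2)).trace = t * (M ^ (k + 1)).trace - (M ^ k).trace := by
    intro k
    rw [pow_add M k 2, pow_two, hCH, mul_sub, mul_one, Matrix.mul_smul, Matrix.trace_sub,
      Matrix.trace_smul, smul_eq_mul, ← pow_succ]
  have key : ∀ k : ℕ, (M ^ k).trace ^ 2 = 4 ∧ 2 * (M ^ (k + 1)).trace = t * (M ^ k).trace := by
    intro k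
    induction k with
    | zero =>
      refine ⟨?_, ?_⟩
      · rw [pow_zero, Matrix.trace_one]
        simp
      · rw [pow_zero, Matrix.trace_one, zero_add, pow_one]
        simp
        ring
    | succ k ih =>
      obtain ⟨h1, h2⟩ := ih
      have h3 : (M ^ (k + 1)).trace ^ 2 = 4 := by
        have h5 : 4 * (M ^ (k + 1)).trace ^ 2 = 16 := by
          calc 4 * (M ^ (k + 1)).trace ^ 2 = (2 * (M ^ (k + 1)).trace) ^ 2 := by ring
            _ = (t * (M ^ k).trace) ^ 2 := by rw [h2]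
            _ = t ^ 2 * (M ^ k).trace ^ 2 := by ring
            _ = 16 := by rw [hg, h1]; norm_num
        linarith
      refine ⟨h3, ?_⟩
      rw [hrec k]
      have h4 : 2 * (t * (M ^ (k + 1)).trace) = 2 * (2 * (M ^ k).trace) := by
        calc 2 * (t * (M ^ (k + 1)).trace) = t * (2 * (M ^ (k + 1)).trace) := by ring
          _ = t * (t * (M ^ k).trace) := by rw [h2]
          _ = t ^ 2 * (M ^ k).trace := by ring
          _ = 2 * (2 * (M ^ k).trace) := by rw [hg]; ring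
      linarith
  exact (key m).1

theorem isParTor_pow (g : SL(2, ℤ)) (hg : IsParTor g) (m : ℕ) : IsParTor (g ^ m) := by
  rcases hg with hg | hg
  · exact Or.inl (isPar_pow g hg m)
  · right
    rw [← pow_mul, mul_comm, pow_mul, hg, one_pow]

/-! ### Conjugation in `GL₂(ℝ)` -/

theorem trace_mapGL (g : SL(2, ℤ)) :
    ((mapGL ℝ g : GL (Fin 2) ℝ) : Matrix (Fin 2) (Fin 2) ℝ).trace =
      (((g : Matrix (Fin 2) (Fin 2) ℤ).trace : ℤ) : ℝ) := by
  rw [coe_mapGL_int, Matrix.trace_fin_two, Matrix.trace_fin_two]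
  simp

/-- `GL₂(ℝ)`-conjugate elements of `SL₂(ℤ)` are parabolic-or-torsion simultaneously -/
theorem isParTor_of_conj {g g' : SL(2, ℤ)} (r : GL (Fin 2) ℝ)
    (h : r * (mapGL ℝ g : GL (Fin 2) ℝ) = (mapGL ℝ g' : GL (Fin 2) ℝ) * r) :
    (IsPar g → IsPar g') ∧ (IsParTor g → IsParTor g') := by
  have h' : (mapGL ℝ g' : GL (Fin 2) ℝ) = r * (mapGL ℝ g : GL (Fin 2) ℝ) * r⁻¹ := by
    rw [h, mul_inv_cancel_right]
  have htr : (g' : Matrix (Fin 2) (Fin 2) ℤ).trace = (g : Matrix (Fin 2) (Fin 2) ℤ).trace := by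
    have h1 : ((mapGL ℝ g' : GL (Fin 2) ℝ) : Matrix (Fin 2) (Fin 2) ℝ).trace =
        ((mapGL ℝ g : GL (Fin 2) ℝ) : Matrix (Fin 2) (Fin 2) ℝ).trace := by
      rw [h', Units.val_mul, Units.val_mul]
      exact Matrix.trace_units_conj r _
    rw [trace_mapGL, trace_mapGL] at h1
    exact_mod_cast h1
  have hpar : IsPar g → IsPar g' := by
    intro hg
    unfold IsPar at hg ⊢
    rw [htr]
    exact hg
  refine ⟨hpar, ?_⟩
  rintro (hg | hg)
  · exact Or.inl (hpar hg)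
  · right
    apply mapGL_injective (S := ℝ)
    rw [map_pow, h', conj_pow, ← map_pow, hg, map_one, mul_one, mul_inv_cancel]

/-! ### Coset data with representatives -/

section Reps

variable {Γ Γ' : Subgroup SL(2, ℤ)} {ι : Type*} [Fintype ι] (D : CosetData ↥Γ ↥Γ' ι)
  (r : ι → GL (Fin 2) ℝ)
  (hr : ∀ (γ : ↥Γ) (x : ι), r x * (mapGL ℝ (γ : SL(2, ℤ)) : GL (Fin 2) ℝ) =
    (mapGL ℝ ((D.c γ x : ↥Γ') : SL(2, ℤ)) : GL (Fin 2) ℝ) * r (D.σ γ x))

include hr in
theorem CosetData.op_isParabolicHom {A : Type*} [AddCommGroup A] {φ : H Γ' A}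
    (hφ : IsParabolicHom Γ' φ) : IsParabolicHom Γ (D.op A φ) := by
  intro γ hγ
  refine D.op_apply_eq_zero φ γ ?_
  intro x m _ hx
  apply hφ
  have h := hr (γ ^ m) x
  rw [hx] at h
  have hpar : IsPar (((γ ^ m : ↥Γ) : SL(2, ℤ))) := by
    rw [Subgroup.coe_pow]
    exact isPar_pow _ hγ m
  exact (isParTor_of_conj (r x) h).1 hpar

include hr in
theorem CosetData.op_mem_parHomsM {A : Type*} [AddCommGroup A] {φ : H Γ' A}
    (hφ : φ ∈ parHomsM Γ' IsParTor A) : D.op A φ ∈ parHomsM Γ IsParTor A := by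
  intro γ hγ
  refine D.op_apply_eq_zero φ γ ?_
  intro x m _ hx
  apply hφ
  have h := hr (γ ^ m) x
  rw [hx] at h
  have hpar : IsParTor (((γ ^ m : ↥Γ) : SL(2, ℤ))) := by
    rw [Subgroup.coe_pow]
    exact isParTor_pow _ hγ m
  exact (isParTor_of_conj (r x) h).2 hpar

end Reps

/-! ### The concrete operators -/

section T

variable {M ℓ : ℕ} [Fact ℓ.Prime] (hℓM : ¬ ℓ ∣ M)

theorem heckeT_isParabolicHom {A : Type*} [AddCommGroup A] {φ : H (Gamma0 M) A}
    (hφ : IsParabolicHom (Gamma0 M) φ) : IsParabolicHom (Gamma0 M) (heckeT hℓM A φ) :=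
  (tData hℓM).op_isParabolicHom (heckeRep ℓ) (fun γ y => tCoc_rel hℓM γ y) hφ

theorem heckeT_mem_parHomsM {A : Type*} [AddCommGroup A] {φ : H (Gamma0 M) A}
    (hφ : φ ∈ parHomsM (Gamma0 M) IsParTor A) : heckeT hℓM A φ ∈ parHomsM (Gamma0 M) IsParTor A :=
  (tData hℓM).op_mem_parHomsM (heckeRep ℓ) (fun γ y => tCoc_rel hℓM γ y) hφ

end T

section Level

variable {N q : ℕ} [NeZero N] [Fact q.Prime] (hqN : ¬ q ∣ N)

theorem res_rel (γ' : ↥(Gamma0 (N * q))) (_x : Unit) :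
    (1 : GL (Fin 2) ℝ) * (mapGL ℝ (γ' : SL(2, ℤ)) : GL (Fin 2) ℝ) =
      (mapGL ℝ ((((CosetData.ofHom (inclMul N q)).c γ' _x : ↥(Gamma0 N))) : SL(2, ℤ)) :
        GL (Fin 2) ℝ) * 1 := by
  rw [one_mul, mul_one]
  rfl

theorem res_isParabolicHom {A : Type*} [AddCommGroup A] {φ : H (Gamma0 N) A}
    (hφ : IsParabolicHom (Gamma0 N) φ) : IsParabolicHom (Gamma0 (N * q)) (res N q A φ) :=
  (CosetData.ofHom (inclMul N q)).op_isParabolicHom (fun _ => 1) (res_rel) hφ

theorem res_mem_parHomsM {A : Type*} [AddCommGroup A] {φ : H (Gamma0 N) A}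
    (hφ : φ ∈ parHomsM (Gamma0 N) IsParTor A) :
    res N q A φ ∈ parHomsM (Gamma0 (N * q)) IsParTor A :=
  (CosetData.ofHom (inclMul N q)).op_mem_parHomsM (fun _ => 1) (res_rel) hφ

theorem deg_isParabolicHom {A : Type*} [AddCommGroup A] {φ : H (Gamma0 N) A}
    (hφ : IsParabolicHom (Gamma0 N) φ) : IsParabolicHom (Gamma0 (N * q)) (deg hqN A φ) :=
  (CosetData.ofHom (conjDelta hqN)).op_isParabolicHom (fun _ => heckeDiagMatrix q)
    (fun γ' _ => conjDelta_rel hqN γ') hφ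

theorem deg_mem_parHomsM {A : Type*} [AddCommGroup A] {φ : H (Gamma0 N) A}
    (hφ : φ ∈ parHomsM (Gamma0 N) IsParTor A) :
    deg hqN A φ ∈ parHomsM (Gamma0 (N * q)) IsParTor A :=
  (CosetData.ofHom (conjDelta hqN)).op_mem_parHomsM (fun _ => heckeDiagMatrix q)
    (fun γ' _ => conjDelta_rel hqN γ') hφ

theorem coresAData_rel (γ : ↥(Gamma0 N)) (x : OnePoint (ZMod q)) :
    (mapGL ℝ ((alphaRep hqN x : ↥(Gamma0 N)) : SL(2, ℤ)) : GL (Fin 2) ℝ) *
        (mapGL ℝ (γ : SL(2, ℤ)) : GL (Fin 2) ℝ) =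
      (mapGL ℝ ((((coresAData hqN).c γ x : ↥(Gamma0 (N * q)))) : SL(2, ℤ)) : GL (Fin 2) ℝ) *
        (mapGL ℝ ((alphaRep hqN ((coresAData hqN).σ γ x) : ↥(Gamma0 N)) : SL(2, ℤ)) :
          GL (Fin 2) ℝ) := by
  rw [← map_mul, ← map_mul]
  congr 1
  show ((alphaRep hqN x : ↥(Gamma0 N)) : SL(2, ℤ)) * (γ : SL(2, ℤ)) =
    ((alphaCoc hqN γ x : ↥(Gamma0 N)) : SL(2, ℤ)) *
      ((alphaRep hqN (tPerm q γ x) : ↥(Gamma0 N)) : SL(2, ℤ))
  rw [← Subgroup.coe_mul, ← Subgroup.coe_mul]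
  congr 1
  simp only [alphaCoc]
  group

theorem coresA_isParabolicHom {A : Type*} [AddCommGroup A] {φ : H (Gamma0 (N * q)) A}
    (hφ : IsParabolicHom (Gamma0 (N * q)) φ) : IsParabolicHom (Gamma0 N) (coresA hqN A φ) :=
  (coresAData hqN).op_isParabolicHom _ (coresAData_rel hqN) hφ

theorem coresA_mem_parHomsM {A : Type*} [AddCommGroup A] {φ : H (Gamma0 (N * q)) A}
    (hφ : φ ∈ parHomsM (Gamma0 (N * q)) IsParTor A) :
    coresA hqN A φ ∈ parHomsM (Gamma0 N) IsParTor A :=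
  (coresAData hqN).op_mem_parHomsM _ (coresAData_rel hqN) hφ

end Level

section AL

variable {N q : ℕ} [NeZero N] [Fact q.Prime] (hqN : ¬ q ∣ N)
  (x y z w : ℤ) (h : (q : ℤ) * x * w - (N : ℤ) * y * z = 1)

theorem alW_rel (γ' : ↥(Gamma0 (N * q))) (_u : Unit) :
    (alGL x y z w h)⁻¹ * (mapGL ℝ (γ' : SL(2, ℤ)) : GL (Fin 2) ℝ) =
      (mapGL ℝ ((((CosetData.ofHom (alConjMulEquiv x y z w h).toMonoidHom).c γ' _u :
        ↥(Gamma0 (N * q)))) : SL(2, ℤ)) : GL (Fin 2) ℝ) * (alGL x y z w h)⁻¹ := by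
  show (alGL x y z w h)⁻¹ * (mapGL ℝ (γ' : SL(2, ℤ)) : GL (Fin 2) ℝ) =
    (mapGL ℝ ((alConj x y z w h γ' : ↥(Gamma0 (N * q))) : SL(2, ℤ)) : GL (Fin 2) ℝ) *
      (alGL x y z w h)⁻¹
  rw [inv_mul_eq_iff_eq_mul, ← mul_assoc, alGL_mul_alConj, mul_inv_cancel_right]

theorem alW_isParabolicHom {A : Type*} [AddCommGroup A] {φ : H (Gamma0 (N * q)) A}
    (hφ : IsParabolicHom (Gamma0 (N * q)) φ) :
    IsParabolicHom (Gamma0 (N * q)) (alW x y z w h A φ) :=
  (CosetData.ofHom (alConjMulEquiv x y z w h).toMonoidHom).op_isParabolicHom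
    (fun _ => (alGL x y z w h)⁻¹) (alW_rel x y z w h) hφ

theorem alW_mem_parHomsM {A : Type*} [AddCommGroup A] {φ : H (Gamma0 (N * q)) A}
    (hφ : φ ∈ parHomsM (Gamma0 (N * q)) IsParTor A) :
    alW x y z w h A φ ∈ parHomsM (Gamma0 (N * q)) IsParTor A :=
  (CosetData.ofHom (alConjMulEquiv x y z w h).toMonoidHom).op_mem_parHomsM
    (fun _ => (alGL x y z w h)⁻¹) (alW_rel x y z w h) hφ

theorem coresB_isParabolicHom {A : Type*} [AddCommGroup A] {φ : H (Gamma0 (N * q)) A}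
    (hφ : IsParabolicHom (Gamma0 (N * q)) φ) :
    IsParabolicHom (Gamma0 N) (coresB hqN x y z w h A φ) :=
  coresA_isParabolicHom hqN (alW_isParabolicHom x y z w h hφ)

theorem coresB_mem_parHomsM {A : Type*} [AddCommGroup A] {φ : H (Gamma0 (N * q)) A}
    (hφ : φ ∈ parHomsM (Gamma0 (N * q)) IsParTor A) :
    coresB hqN x y z w h A φ ∈ parHomsM (Gamma0 N) IsParTor A :=
  coresA_mem_parHomsM hqN (alW_mem_parHomsM x y z w h hφ)

end AL

end Fermat.Agent.S41lib.HC
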