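/-
S41lib / HC / BridgeTrace (helper1).

The trace `S₂(Γ₀(N q)) → S₂(Γ₀(N))` (helper2's `NEW.trOp` = Mathlib's `CuspForm.trace`) corresponds
to the transfer `coresA` under the Eichler–Shimura map:
`coresA (periodHomPair (N q) (f, g)) = periodHomPair N (Tr f, Tr g)`.
-/
import Mathlib
import Fermat.Agent.S41lib.HC.Bridge
import Fermat.Agent.S41lib.HC.Parabolic
import Fermat.Agent.S41lib.NEW.Trace

set_option autoImplicit false
set_option linter.unusedSectionVars false

noncomputable section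

namespace Fermat.Agent.S41lib.HC

open UpperHalfPlane Filter Topology CongruenceSubgroup Matrix.SpecialLinearGroup ModularForm
open ModularCurve ModularCurve.Period Fermat.Agent.TeamB Fermat.Agent.ProgramR.ES
open Fermat.Agent.S16lib.LH Fermat.Agent.S29lib.H Fermat.Agent.S31lib.PET
open Fermat.Agent.S41lib.NEW
open scoped MatrixGroups ModularForm Manifold

variable {N q : ℕ} [NeZero N] [Fact q.Prime]

/-! ### The trace formula for an arbitrary system of representatives -/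

/-- `a : ι → Γ₀(N)` is a system of representatives of `Γ₀(N q) \ Γ₀(N)` -/
structure IsRightTransversal {ι : Type*} (a : ι → ↥(Gamma0 N)) (q : ℕ) : Prop where
  inj : ∀ x y, ((a x * (a y)⁻¹ : ↥(Gamma0 N)) : SL(2, ℤ)) ∈ Gamma0 (N * q) → x = y
  surj : ∀ g : ↥(Gamma0 N), ∃ x, ((a x * g : ↥(Gamma0 N)) : SL(2, ℤ)) ∈ Gamma0 (N * q)

theorem IsRightTransversal.bijective {ι : Type*} {a : ι → ↥(Gamma0 N)}
    (ha : IsRightTransversal a q) :
    Function.Bijective (fun x : ι => (QuotientGroup.mk (g0Elt (a x)⁻¹) :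
      ↥((Gamma0 N : Subgroup SL(2, ℤ)) : Subgroup (GL (Fin 2) ℝ)) ⧸
        ((Gamma0 (N * q) : Subgroup SL(2, ℤ)) : Subgroup (GL (Fin 2) ℝ)).subgroupOf
          ((Gamma0 N : Subgroup SL(2, ℤ)) : Subgroup (GL (Fin 2) ℝ)))) := by
  constructor
  · intro x y hxy
    simp only at hxy
    rw [mk_g0Elt_eq_iff] at hxy
    apply ha.inj
    simpa using hxy
  · intro c
    obtain ⟨r, rfl⟩ := QuotientGroup.mk_surjective c
    obtain ⟨g, rfl⟩ := exists_g0Elt r
    obtain ⟨x, hx⟩ := ha.surj g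
    refine ⟨x, ?_⟩
    simp only
    rw [mk_g0Elt_eq_iff]
    simpa using hx

/-- **Trace formula**: `Tr f = ∑ x, f ∣ a x` for any system of representatives. -/
theorem coe_trOp_eq_sum {ι : Type*} [Fintype ι] {a : ι → ↥(Gamma0 N)}
    (ha : IsRightTransversal a q) {k : ℤ} (f : CuspForm (Gamma0 (N * q)) k) :
    ⇑(trOp N q k f) =
      ∑ x, ⇑f ∣[k] (mapGL ℝ ((a x : ↥(Gamma0 N)) : SL(2, ℤ)) : GL (Fin 2) ℝ) := by
  rw [coe_trOp, CuspForm.coe_trace]
  let _ : Fintype (↥((Gamma0 N : Subgroup SL(2, ℤ)) : Subgroup (GL (Fin 2) ℝ)) ⧸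
      ((Gamma0 (N * q) : Subgroup SL(2, ℤ)) : Subgroup (GL (Fin 2) ℝ)).subgroupOf
        ((Gamma0 N : Subgroup SL(2, ℤ)) : Subgroup (GL (Fin 2) ℝ))) := Fintype.ofFinite _
  refine (Function.Bijective.sum_comp ha.bijective _).symm.trans ?_
  refine Finset.sum_congr rfl fun x _ => ?_
  change SlashInvariantForm.quotientFunc f ⟦g0Elt _⟧ = _
  rw [SlashInvariantForm.quotientFunc_mk]
  simp [g0Elt]

/-! ### The representatives `alphaRep` and their `J`-conjugates -/

variable (hqN : ¬ q ∣ N)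

theorem isRightTransversal_alphaRep : IsRightTransversal (alphaRep hqN) q where
  inj := by
    intro x y hxy
    set γ' : ↥(Gamma0 (N * q)) := ⟨_, hxy⟩ with hγ'
    have h1 : PhiA hqN (y, 1) = PhiA hqN (x, γ') := by
      rw [PhiA_apply, PhiA_apply]
      apply Subtype.ext
      simp [hγ']
    have := (PhiA hqN).injective h1
    exact (congrArg Prod.fst this).symm
  surj := by
    intro g
    refine ⟨((PhiA hqN).symm g).1, ?_⟩
    have h1 : g = (alphaRep hqN ((PhiA hqN).symm g).1)⁻¹ * inclMul N q ((PhiA hqN).symm g).2 :=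
      ((PhiA hqN).apply_symm_apply g).symm
    have h2 : alphaRep hqN ((PhiA hqN).symm g).1 * g = inclMul N q ((PhiA hqN).symm g).2 :=
      eq_inv_mul_iff_mul_eq.mp h1
    rw [h2, coe_inclMul]
    exact ((PhiA hqN).symm g).2.2

theorem jConjSL_mem_Gamma0_iff {M : ℕ} (A : SL(2, ℤ)) : jConjSL A ∈ Gamma0 M ↔ A ∈ Gamma0 M := by
  constructor
  · intro h
    have := jConjSL_mem_Gamma0 h
    rwa [jConjSL_jConjSL] at this
  · exact jConjSL_mem_Gamma0

theorem IsRightTransversal.jConj {ι : Type*} {a : ι → ↥(Gamma0 N)}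
    (ha : IsRightTransversal a q) : IsRightTransversal (fun x => jConjGamma0 N (a x)) q where
  inj := by
    intro x y hxy
    apply ha.inj
    have h1 : ((jConjGamma0 N (a x) * (jConjGamma0 N (a y))⁻¹ : ↥(Gamma0 N)) : SL(2, ℤ)) =
        jConjSL (((a x * (a y)⁻¹ : ↥(Gamma0 N)) : SL(2, ℤ))) := by
      rw [← map_inv, ← map_mul, jConjGamma0_coe]
    rw [h1, jConjSL_mem_Gamma0_iff] at hxy
    exact hxy
  surj := by
    intro g
    obtain ⟨x, hx⟩ := ha.surj (jConjGamma0 N g)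
    refine ⟨x, ?_⟩
    have h1 : ((jConjGamma0 N (a x) * g : ↥(Gamma0 N)) : SL(2, ℤ)) =
        jConjSL (((a x * jConjGamma0 N g : ↥(Gamma0 N)) : SL(2, ℤ))) := by
      rw [← jConjGamma0_coe, map_mul, jConjGamma0_jConjGamma0]
    rw [h1, jConjSL_mem_Gamma0_iff]
    exact hx

/-! ### The bridge for the trace -/

/-- **`coresA ∘ per = per ∘ (Tr × Tr)`** -/
theorem coresA_periodHomPair (f g : CuspForm (Gamma0 (N * q)) 2) :
    coresA hqN ℂ (periodHomPair (N * q) (f, g)) =
      periodHomPair N (trOp N q 2 f, trOp N q 2 g) := by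
  have hN : NeZero (N * q) := ⟨Nat.mul_ne_zero (NeZero.ne N) (NeZero.ne q)⟩
  refine periodHomPair_op (coresAData hqN)
    (fun x => (mapGL ℝ ((alphaRep hqN x : ↥(Gamma0 N)) : SL(2, ℤ)) : GL (Fin 2) ℝ))
    (fun x => (mapGL ℝ ((jConjGamma0 N (alphaRep hqN x) : ↥(Gamma0 N)) : SL(2, ℤ)) :
      GL (Fin 2) ℝ))
    (coresAData_rel hqN) (fun x => det_mapGL_pos _) (fun x => det_mapGL_pos _)
    (fun x => mapGL_jConjSL_mul_J _) f g _ _
    (coe_trOp_eq_sum (isRightTransversal_alphaRep hqN) f)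
    (coe_trOp_eq_sum (isRightTransversal_alphaRep hqN).jConj f)
    (coe_trOp_eq_sum (isRightTransversal_alphaRep hqN) g)
    (coe_trOp_eq_sum (isRightTransversal_alphaRep hqN).jConj g)

end Fermat.Agent.S41lib.HC
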