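/-
S41lib / HC / Commute (helper1).

Two coset data between subgroups of `SL₂(ℤ)` whose representatives in `GL₂(ℝ)` generate the same
left `Γ'`-cosets induce the same operator.
-/
import Mathlib
import Fermat.Agent.S41lib.HC.CosetData

set_option autoImplicit false
set_option linter.unusedSectionVars false

noncomputable section

namespace Fermat.Agent.S41lib.HC

open Matrix.SpecialLinearGroup
open scoped MatrixGroups

theorem CosetData.op_eq_of_reps {Γ Γ' : Subgroup SL(2, ℤ)} {ι κ : Type*} [Fintype ι] [Fintype κ]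
    (D₁ : CosetData ↥Γ ↥Γ' ι) (D₂ : CosetData ↥Γ ↥Γ' κ)
    (R₁ : ι → GL (Fin 2) ℝ) (R₂ : κ → GL (Fin 2) ℝ)
    (h₁ : ∀ (γ : ↥Γ) (p : ι), R₁ p * (mapGL ℝ (γ : SL(2, ℤ)) : GL (Fin 2) ℝ) =
      (mapGL ℝ ((D₁.c γ p : ↥Γ') : SL(2, ℤ)) : GL (Fin 2) ℝ) * R₁ (D₁.σ γ p))
    (h₂ : ∀ (γ : ↥Γ) (k : κ), R₂ k * (mapGL ℝ (γ : SL(2, ℤ)) : GL (Fin 2) ℝ) =
      (mapGL ℝ ((D₂.c γ k : ↥Γ') : SL(2, ℤ)) : GL (Fin 2) ℝ) * R₂ (D₂.σ γ k))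
    (U₁ : ∀ (c c' : ↥Γ') (p p' : ι),
      (mapGL ℝ (c : SL(2, ℤ)) : GL (Fin 2) ℝ) * R₁ p =
        (mapGL ℝ (c' : SL(2, ℤ)) : GL (Fin 2) ℝ) * R₁ p' → p = p')
    (U₂ : ∀ (c c' : ↥Γ') (k k' : κ),
      (mapGL ℝ (c : SL(2, ℤ)) : GL (Fin 2) ℝ) * R₂ k =
        (mapGL ℝ (c' : SL(2, ℤ)) : GL (Fin 2) ℝ) * R₂ k' → k = k' ∧ c = c')
    (E : ∀ p : ι, ∃ k : κ, ∃ d : ↥Γ',
      R₁ p = (mapGL ℝ (d : SL(2, ℤ)) : GL (Fin 2) ℝ) * R₂ k)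
    (hcard : Fintype.card ι = Fintype.card κ) (A : Type*) [AddCommGroup A] :
    D₁.op A = D₂.op A := by
  classical
  choose e hE using E
  choose d hd using hE
  have hinj : Function.Injective e := by
    intro p p' hpp'
    have e1 := hd p
    have e2 := hd p'
    rw [hpp'] at e1
    refine U₁ (d p)⁻¹ (d p')⁻¹ p p' ?_
    rw [e1, e2, Subgroup.coe_inv, Subgroup.coe_inv, map_inv, map_inv, inv_mul_cancel_left,
      inv_mul_cancel_left]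
  have hbij : Function.Bijective e :=
    (Fintype.bijective_iff_injective_and_card e).mpr ⟨hinj, hcard⟩
  symm
  refine CosetData.op_eq_of_conj D₁ D₂ (Equiv.ofBijective e hbij) (fun p => (d p)⁻¹) ?_ A
  intro γ p
  rw [inv_inv]
  show D₂.c γ (e p) = (d p)⁻¹ * D₁.c γ p * d (D₁.σ γ p)
  have e1 := h₂ γ (e p)
  have e2 : R₂ (e p) * (mapGL ℝ (γ : SL(2, ℤ)) : GL (Fin 2) ℝ) =
      (mapGL ℝ ((((d p)⁻¹ * D₁.c γ p * d (D₁.σ γ p) : ↥Γ')) : SL(2, ℤ)) : GL (Fin 2) ℝ) *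
        R₂ (e (D₁.σ γ p)) := by
    have e3 : R₂ (e p) = (mapGL ℝ ((d p : ↥Γ') : SL(2, ℤ)) : GL (Fin 2) ℝ)⁻¹ * R₁ p := by
      rw [hd p, inv_mul_cancel_left]
    rw [e3, mul_assoc, h₁ γ p, hd (D₁.σ γ p), Subgroup.coe_mul, Subgroup.coe_mul,
      Subgroup.coe_inv, map_mul, map_mul, map_inv]
    simp only [mul_assoc]
  rw [e1] at e2
  exact (U₂ _ _ _ _ e2).2

end Fermat.Agent.S41lib.HC
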