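/-
S41lib / HC / CommuteCores (helper1).

(C4) The transfer `coresA : H(Γ₀(N q)) → H(Γ₀(N))` commutes with the Hecke operators `T_ℓ`,
`ℓ ∤ N q`.
-/
import Mathlib
import Fermat.Agent.S41lib.HC.Commute
import Fermat.Agent.S41lib.HC.BridgeTrace

set_option autoImplicit false
set_option linter.unusedSectionVars false

noncomputable section

namespace Fermat.Agent.S41lib.HC

open UpperHalfPlane Matrix.SpecialLinearGroup CongruenceSubgroup ModularForm
open Fermat.Agent.S16lib.LH Fermat.Agent.S29lib.H Fermat.Agent.S31lib.PET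
open P2MW.S_ModularForm_heckeT_slash_eq_self_of_mem_Gamma0.ModularForm.HeckeSlashInvariance
open scoped MatrixGroups

/-! ### The lower left entry -/

/-- from `GL₂(ℝ)` to integer matrices, representatives on the left -/
theorem int_eq_of_heckeRep_mul_mapGL {ℓ : ℕ} [Fact ℓ.Prime] {γ c : SL(2, ℤ)}
    {y y' : OnePoint (ZMod ℓ)}
    (h : heckeRep ℓ y * (mapGL ℝ γ : GL (Fin 2) ℝ) = (mapGL ℝ c : GL (Fin 2) ℝ) * heckeRep ℓ y') :
    repInt ℓ y * (γ : Matrix (Fin 2) (Fin 2) ℤ) = (c : Matrix (Fin 2) (Fin 2) ℤ) * repInt ℓ y' := by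
  have h1 := congrArg (fun g : GL (Fin 2) ℝ => (g : Matrix (Fin 2) (Fin 2) ℝ)) h
  simp only [Units.val_mul] at h1
  rw [coe_mapGL_int, coe_mapGL_int, coe_heckeRep, coe_heckeRep, ← Matrix.map_mul,
    ← Matrix.map_mul] at h1
  exact Matrix.map_injective (Int.cast_injective (α := ℝ)) h1

theorem mem_Gamma0_iff_dvd {M : ℕ} (g : SL(2, ℤ)) : g ∈ Gamma0 M ↔ (M : ℤ) ∣ g 1 0 := by
  rw [Gamma0_mem, ZMod.intCast_zmod_eq_zero_iff_dvd]

/-- `h_y γ = c h_{y'}` with `c ∈ Γ₀(M)`, `ℓ ∤ M`, forces `γ ∈ Γ₀(M)`. -/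
theorem mem_Gamma0_of_heckeRep_rel {M ℓ : ℕ} [Fact ℓ.Prime] (hℓM : ¬ ℓ ∣ M) {γ c : SL(2, ℤ)}
    (hc : c ∈ Gamma0 M) {y y' : OnePoint (ZMod ℓ)}
    (h : heckeRep ℓ y * (mapGL ℝ γ : GL (Fin 2) ℝ) = (mapGL ℝ c : GL (Fin 2) ℝ) * heckeRep ℓ y') :
    γ ∈ Gamma0 M := by
  have hℓ : ℓ.Prime := Fact.out
  rw [mem_Gamma0_iff_dvd] at hc ⊢
  have h1 := int_eq_of_heckeRep_mul_mapGL h
  have e10 := congrFun (congrFun h1 1) 0
  have hcop : IsCoprime (M : ℤ) (ℓ : ℤ) := by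
    rw [Nat.isCoprime_iff_coprime]
    exact ((Nat.Prime.coprime_iff_not_dvd hℓ).mpr hℓM).symm
  have key : ∀ A : ℤ, (M : ℤ) ∣ c 1 0 * A := fun A => Dvd.dvd.mul_right hc A
  induction y using OnePoint.rec with
  | infty =>
    induction y' using OnePoint.rec with
    | infty =>
      simp only [repInt_infty, Matrix.mul_apply, Fin.sum_univ_two, Matrix.of_apply,
        Matrix.cons_val', Matrix.cons_val_zero, Matrix.cons_val_one, Matrix.empty_val',
        Matrix.cons_val_fin_one] at e10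
      have := key (ℓ : ℤ)
      have h2 : γ 1 0 = c 1 0 * (ℓ : ℤ) := by linarith
      rw [h2]; exact this
    | coe j' =>
      simp only [repInt_infty, repInt_coe, Matrix.mul_apply, Fin.sum_univ_two, Matrix.of_apply,
        Matrix.cons_val', Matrix.cons_val_zero, Matrix.cons_val_one, Matrix.empty_val',
        Matrix.cons_val_fin_one] at e10
      have := key 1
      have h2 : γ 1 0 = c 1 0 * 1 := by linarith
      rw [h2]; exact this
  | coe j =>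
    induction y' using OnePoint.rec with
    | infty =>
      simp only [repInt_infty, repInt_coe, Matrix.mul_apply, Fin.sum_univ_two, Matrix.of_apply,
        Matrix.cons_val', Matrix.cons_val_zero, Matrix.cons_val_one, Matrix.empty_val',
        Matrix.cons_val_fin_one] at e10
      have := key (ℓ : ℤ)
      have h2 : (ℓ : ℤ) * γ 1 0 = c 1 0 * (ℓ : ℤ) := by linarith
      rw [← h2] at this
      exact hcop.dvd_of_dvd_mul_left this
    | coe j' =>
      simp only [repInt_coe, Matrix.mul_apply, Fin.sum_univ_two, Matrix.of_apply,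
        Matrix.cons_val', Matrix.cons_val_zero, Matrix.cons_val_one, Matrix.empty_val',
        Matrix.cons_val_fin_one] at e10
      have := key 1
      have h2 : (ℓ : ℤ) * γ 1 0 = c 1 0 * 1 := by linarith
      rw [← h2] at this
      exact hcop.dvd_of_dvd_mul_left this

/-! ### (C4) -/

section C4

variable {N q ℓ : ℕ} [NeZero N] [Fact q.Prime] [Fact ℓ.Prime] (hqN : ¬ q ∣ N)
  (hℓN : ¬ ℓ ∣ N) (hℓNq : ¬ ℓ ∣ N * q)

/-- **`coresA ∘ T_ℓ = T_ℓ ∘ coresA`** -/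
theorem coresA_heckeT {A : Type*} [AddCommGroup A] (φ : H (Gamma0 (N * q)) A) :
    coresA hqN A (heckeT hℓNq A φ) = heckeT hℓN A (coresA hqN A φ) := by
  have htr := isRightTransversal_alphaRep (N := N) (q := q) hqN
  have key : ((coresAData hqN).comp (tData hℓNq)).op A =
      ((tData hℓN).comp (coresAData hqN)).op A := by
    refine CosetData.op_eq_of_reps _ _
      (fun p : OnePoint (ZMod q) × OnePoint (ZMod ℓ) => heckeRep ℓ p.2 *
        (mapGL ℝ ((alphaRep hqN p.1 : ↥(Gamma0 N)) : SL(2, ℤ)) : GL (Fin 2) ℝ))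
      (fun k : OnePoint (ZMod ℓ) × OnePoint (ZMod q) =>
        (mapGL ℝ ((alphaRep hqN k.2 : ↥(Gamma0 N)) : SL(2, ℤ)) : GL (Fin 2) ℝ) *
          heckeRep ℓ k.1) ?_ ?_ ?_ ?_ ?_ ?_ A
    · -- h₁
      rintro γ ⟨x, y⟩
      show heckeRep ℓ y *
          (mapGL ℝ ((alphaRep hqN x : ↥(Gamma0 N)) : SL(2, ℤ)) : GL (Fin 2) ℝ) *
          (mapGL ℝ (γ : SL(2, ℤ)) : GL (Fin 2) ℝ) =
        (mapGL ℝ ((tCoc hℓNq ((coresAData hqN).c γ x) y : ↥(Gamma0 (N * q))) : SL(2, ℤ)) :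
          GL (Fin 2) ℝ) * (heckeRep ℓ (tPerm ℓ ((coresAData hqN).c γ x) y) *
          (mapGL ℝ ((alphaRep hqN ((coresAData hqN).σ γ x) : ↥(Gamma0 N)) : SL(2, ℤ)) :
            GL (Fin 2) ℝ))
      rw [mul_assoc, coresAData_rel hqN γ x, ← mul_assoc, tCoc_rel hℓNq, mul_assoc]
    · -- h₂
      rintro γ ⟨y, x⟩
      show (mapGL ℝ ((alphaRep hqN x : ↥(Gamma0 N)) : SL(2, ℤ)) : GL (Fin 2) ℝ) *
          heckeRep ℓ y * (mapGL ℝ (γ : SL(2, ℤ)) : GL (Fin 2) ℝ) =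
        (mapGL ℝ (((coresAData hqN).c (tCoc hℓN γ y) x : ↥(Gamma0 (N * q))) : SL(2, ℤ)) :
          GL (Fin 2) ℝ) *
          ((mapGL ℝ ((alphaRep hqN ((coresAData hqN).σ (tCoc hℓN γ y) x) : ↥(Gamma0 N)) :
            SL(2, ℤ)) : GL (Fin 2) ℝ) * heckeRep ℓ (tPerm ℓ γ y))
      rw [mul_assoc, tCoc_rel hℓN, ← mul_assoc, coresAData_rel hqN (tCoc hℓN γ y) x, mul_assoc]
    · -- U₁
      rintro c c' ⟨x, y⟩ ⟨x', y'⟩ hcc
      simp only at hcc
      have h1 : heckeRep ℓ y * (mapGL ℝ (((alphaRep hqN x * (alphaRep hqN x')⁻¹ : ↥(Gamma0 N)) :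
          SL(2, ℤ))) : GL (Fin 2) ℝ) =
          (mapGL ℝ (((c⁻¹ * c' : ↥(Gamma0 (N * q))) : SL(2, ℤ))) : GL (Fin 2) ℝ) *
            heckeRep ℓ y' := by
        have h0 : heckeRep ℓ y *
            (mapGL ℝ ((alphaRep hqN x : ↥(Gamma0 N)) : SL(2, ℤ)) : GL (Fin 2) ℝ) =
            (mapGL ℝ ((c : ↥(Gamma0 (N * q))) : SL(2, ℤ)) : GL (Fin 2) ℝ)⁻¹ *
              ((mapGL ℝ ((c' : ↥(Gamma0 (N * q))) : SL(2, ℤ)) : GL (Fin 2) ℝ) *
                (heckeRep ℓ y' *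
                  (mapGL ℝ ((alphaRep hqN x' : ↥(Gamma0 N)) : SL(2, ℤ)) : GL (Fin 2) ℝ))) := by
          rw [← hcc, inv_mul_cancel_left]
        rw [Subgroup.coe_mul, Subgroup.coe_inv, Subgroup.coe_mul, Subgroup.coe_inv, map_mul,
          map_mul, map_inv, map_inv, ← mul_assoc, h0]
        simp only [mul_assoc, mul_inv_cancel, mul_one]
      have h2 := mem_Gamma0_of_heckeRep_rel hℓNq (c⁻¹ * c').2 h1
      have hx : x = x' := htr.inj x x' h2
      subst hx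
      rw [← mul_assoc, ← mul_assoc] at hcc
      have h3 := (heckeRep_coset_unique (mul_right_cancel hcc)).1
      rw [h3]
    · -- U₂
      rintro c c' ⟨y, x⟩ ⟨y', x'⟩ hcc
      simp only at hcc
      rw [← mul_assoc, ← mul_assoc, ← map_mul, ← map_mul] at hcc
      obtain ⟨hy, h1⟩ := heckeRep_coset_unique hcc
      have h2 : ((alphaRep hqN x * (alphaRep hqN x')⁻¹ : ↥(Gamma0 N)) : SL(2, ℤ)) =
          (((c⁻¹ * c' : ↥(Gamma0 (N * q))) : SL(2, ℤ))) := by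
        rw [Subgroup.coe_mul, Subgroup.coe_inv, Subgroup.coe_mul, Subgroup.coe_inv,
          mul_inv_eq_iff_eq_mul, mul_assoc, eq_inv_mul_iff_mul_eq]
        exact h1
      have hx : x = x' := htr.inj x x' (by rw [h2]; exact (c⁻¹ * c').2)
      subst hx
      subst hy
      refine ⟨rfl, ?_⟩
      apply Subtype.ext
      exact mul_right_cancel h1
    · -- E
      rintro ⟨x, y⟩
      obtain ⟨x', hx'⟩ := htr.surj (tCoc hℓN (alphaRep hqN x) y)⁻¹
      refine ⟨(tPerm ℓ (alphaRep hqN x) y, x'), (⟨_, hx'⟩ : ↥(Gamma0 (N * q)))⁻¹, ?_⟩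
      show heckeRep ℓ y * (mapGL ℝ ((alphaRep hqN x : ↥(Gamma0 N)) : SL(2, ℤ)) : GL (Fin 2) ℝ) =
        (mapGL ℝ (((⟨_, hx'⟩ : ↥(Gamma0 (N * q)))⁻¹ : ↥(Gamma0 (N * q))) : SL(2, ℤ)) :
          GL (Fin 2) ℝ) *
        ((mapGL ℝ ((alphaRep hqN x' : ↥(Gamma0 N)) : SL(2, ℤ)) : GL (Fin 2) ℝ) *
          heckeRep ℓ (tPerm ℓ (alphaRep hqN x) y))
      rw [tCoc_rel hℓN, ← mul_assoc, ← map_mul]
      congr 2
      simp
    · -- card
      rw [Fintype.card_prod, Fintype.card_prod, mul_comm]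
  have := congrArg (fun F => F φ) key
  rw [CosetData.comp_op, CosetData.comp_op] at this
  exact this

end C4

end Fermat.Agent.S41lib.HC
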