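/-
S41lib / HC / Equivariance (helper1).

`res` and `deg : H(Γ₀(N)) → H(Γ₀(N q))` commute with the Hecke operators `T_ℓ`, `ℓ ∤ N q`.
-/
import Mathlib
import Fermat.Agent.S41lib.HC.LevelAL

set_option autoImplicit false
set_option linter.unusedSectionVars false

noncomputable section

namespace Fermat.Agent.S41lib.HC

open UpperHalfPlane Matrix.SpecialLinearGroup CongruenceSubgroup ModularForm
open Fermat.Agent.S16lib.LH Fermat.Agent.S29lib.H Fermat.Agent.S31lib.PET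
open P2MW.S_ModularForm_heckeT_slash_eq_self_of_mem_Gamma0.ModularForm.HeckeSlashInvariance
open scoped MatrixGroups

variable {N q ℓ : ℕ} [NeZero N] [Fact q.Prime] [Fact ℓ.Prime] (hqN : ¬ q ∣ N)
  (hℓN : ¬ ℓ ∣ N) (hℓNq : ¬ ℓ ∣ N * q)

/-! ### `res` -/

theorem inclMul_tCoc (γ' : ↥(Gamma0 (N * q))) (y : OnePoint (ZMod ℓ)) :
    inclMul N q (tCoc hℓNq γ' y) = tCoc hℓN (inclMul N q γ') y := by
  apply Subtype.ext
  have h := tCoc_unique hℓN (inclMul N q γ') y (tPerm ℓ γ' y)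
    ((tCoc hℓNq γ' y : ↥(Gamma0 (N * q))) : SL(2, ℤ)) (tCoc_rel hℓNq γ' y)
  exact h.2

/-- `res ∘ T_ℓ = T_ℓ ∘ res` -/
theorem res_heckeT {A : Type*} [AddCommGroup A] (φ : H (Gamma0 N) A) :
    res N q A (heckeT hℓN A φ) = heckeT hℓNq A (res N q A φ) := by
  ext γ'
  show res N q A (heckeT hℓN A φ) (Additive.ofMul γ') =
    heckeT hℓNq A (res N q A φ) (Additive.ofMul γ')
  rw [res_apply, heckeT_apply, heckeT_apply]
  refine Finset.sum_congr rfl fun y _ => ?_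
  rw [res_apply, inclMul_tCoc hℓN hℓNq]

/-! ### `deg` -/

/-- the upper unipotent matrix `(1 k; 0 1)` in `Γ₀(N)` -/
def unipT (N : ℕ) (k : ℤ) : ↥(Gamma0 N) :=
  ⟨⟨!![1, k; 0, 1], by rw [Matrix.det_fin_two_of]; ring⟩, by
    rw [Gamma0_mem]
    show (((0 : ℤ) : ℤ) : ZMod N) = 0
    simp⟩

include hℓNq in
theorem natCast_ne_zero_of_not_dvd_mul : ((q : ℕ) : ZMod ℓ) ≠ 0 := by
  intro h0
  rw [ZMod.natCast_eq_zero_iff] at h0
  exact hℓNq (dvd_mul_of_dvd_right h0 N)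

/-- multiplication by `q` on `P¹(𝔽_ℓ)` -/
def mulPerm : Equiv.Perm (OnePoint (ZMod ℓ)) :=
  Equiv.optionCongr (Equiv.mulLeft₀ ((q : ℕ) : ZMod ℓ) (natCast_ne_zero_of_not_dvd_mul hℓNq))

@[simp] theorem mulPerm_infty : mulPerm hℓNq (OnePoint.infty : OnePoint (ZMod ℓ)) = OnePoint.infty :=
  rfl

@[simp] theorem mulPerm_coe (j : ZMod ℓ) :
    mulPerm hℓNq (j : OnePoint (ZMod ℓ)) = ((((q : ℕ) : ZMod ℓ) * j : ZMod ℓ) : OnePoint (ZMod ℓ)) :=
  rfl

/-- `δ_q · h_y = u_y · h_{q y} · δ_q` -/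
theorem exists_heckeDiag_mul_heckeRep (y : OnePoint (ZMod ℓ)) :
    ∃ k : ℤ, heckeDiagMatrix q * heckeRep ℓ y =
      (mapGL ℝ ((unipT N k : ↥(Gamma0 N)) : SL(2, ℤ)) : GL (Fin 2) ℝ) *
        heckeRep ℓ (mulPerm hℓNq y) * heckeDiagMatrix q := by
  have hq0 : q ≠ 0 := (Fact.out : q.Prime).ne_zero
  induction y using OnePoint.rec with
  | infty =>
    refine ⟨0, ?_⟩
    rw [mulPerm_infty]
    apply Units.ext
    simp only [Units.val_mul]
    rw [coe_heckeRep, coe_mapGL_int, val_heckeDiagMatrix hq0]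
    ext i j
    fin_cases i <;> fin_cases j <;>
      simp [unipT, repInt, Matrix.mul_apply, Fin.sum_univ_two] <;> ring
  | coe j =>
    have hdvd : (ℓ : ℤ) ∣ (q : ℤ) * (j.val : ℤ) - (((((q : ℕ) : ZMod ℓ) * j : ZMod ℓ)).val : ℤ) := by
      rw [← ZMod.intCast_zmod_eq_zero_iff_dvd]
      push_cast
      rw [ZMod.natCast_zmod_val, ZMod.natCast_zmod_val, sub_self]
    obtain ⟨k, hk⟩ := hdvd
    refine ⟨k, ?_⟩
    rw [mulPerm_coe]
    have hkr : (q : ℝ) * (j.val : ℝ) - (((((q : ℕ) : ZMod ℓ) * j : ZMod ℓ)).val : ℝ) = (ℓ : ℝ) * k := by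
      exact_mod_cast hk
    apply Units.ext
    simp only [Units.val_mul]
    rw [coe_heckeRep, coe_heckeRep, coe_mapGL_int, val_heckeDiagMatrix hq0]
    ext i i'
    fin_cases i <;> fin_cases i' <;>
      simp [unipT, repInt, Matrix.mul_apply, Fin.sum_univ_two]
    rw [← ZMod.natCast_val, ← ZMod.natCast_val (((q : ℕ) : ZMod ℓ) * j)]
    linear_combination hkr

/-- the unipotent `u_y` -/
def degUnip (y : OnePoint (ZMod ℓ)) : ↥(Gamma0 N) :=
  unipT N (exists_heckeDiag_mul_heckeRep (N := N) hℓNq y).choose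

theorem heckeDiag_mul_heckeRep (y : OnePoint (ZMod ℓ)) :
    heckeDiagMatrix q * heckeRep ℓ y =
      (mapGL ℝ ((degUnip (N := N) hℓNq y : ↥(Gamma0 N)) : SL(2, ℤ)) : GL (Fin 2) ℝ) *
        heckeRep ℓ (mulPerm hℓNq y) * heckeDiagMatrix q :=
  (exists_heckeDiag_mul_heckeRep (N := N) hℓNq y).choose_spec

/-- the cocycles of `T_ℓ` at the two levels are intertwined by `δ`-conjugation -/
theorem conjDelta_tCoc (γ' : ↥(Gamma0 (N * q))) (y : OnePoint (ZMod ℓ)) :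
    mulPerm hℓNq (tPerm ℓ γ' y) = tPerm ℓ (conjDelta hqN γ') (mulPerm hℓNq y) ∧
    conjDelta hqN (tCoc hℓNq γ' y) * degUnip hℓNq (tPerm ℓ γ' y) =
      degUnip hℓNq y * tCoc hℓN (conjDelta hqN γ') (mulPerm hℓNq y) := by
  have h1 := tCoc_rel hℓNq γ' y
  have h2 := conjDelta_rel hqN (tCoc hℓNq γ' y)
  have h3 := heckeDiag_mul_heckeRep (N := N) hℓNq (tPerm ℓ γ' y)
  have h4 := heckeDiag_mul_heckeRep (N := N) hℓNq y
  have h5 := conjDelta_rel hqN γ'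
  have h6 := tCoc_rel hℓN (conjDelta hqN γ') (mulPerm hℓNq y)
  -- both sides of `δ h_y γ'`
  have hA : heckeDiagMatrix q * heckeRep ℓ y * (mapGL ℝ (γ' : SL(2, ℤ)) : GL (Fin 2) ℝ) =
      (mapGL ℝ ((conjDelta hqN (tCoc hℓNq γ' y) * degUnip hℓNq (tPerm ℓ γ' y) : ↥(Gamma0 N)) :
        SL(2, ℤ)) : GL (Fin 2) ℝ) * heckeRep ℓ (mulPerm hℓNq (tPerm ℓ γ' y)) *
        heckeDiagMatrix q := by
    rw [mul_assoc, h1, ← mul_assoc, h2, mul_assoc, h3, Subgroup.coe_mul, map_mul]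
    simp only [mul_assoc]
  have hB : heckeDiagMatrix q * heckeRep ℓ y * (mapGL ℝ (γ' : SL(2, ℤ)) : GL (Fin 2) ℝ) =
      (mapGL ℝ ((degUnip hℓNq y * tCoc hℓN (conjDelta hqN γ') (mulPerm hℓNq y) : ↥(Gamma0 N)) :
        SL(2, ℤ)) : GL (Fin 2) ℝ) *
        heckeRep ℓ (tPerm ℓ (conjDelta hqN γ') (mulPerm hℓNq y)) * heckeDiagMatrix q := by
    rw [h4, mul_assoc, h5, ← mul_assoc, mul_assoc _ (heckeRep ℓ (mulPerm hℓNq y)), h6,
      Subgroup.coe_mul, map_mul]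
    simp only [mul_assoc]
  have hC := mul_right_cancel (hA.symm.trans hB)
  obtain ⟨hy, hc⟩ := heckeRep_coset_unique hC
  exact ⟨hy, Subtype.ext hc⟩

/-- `deg ∘ T_ℓ = T_ℓ ∘ deg` -/
theorem deg_heckeT {A : Type*} [AddCommGroup A] (φ : H (Gamma0 N) A) :
    deg hqN A (heckeT hℓN A φ) = heckeT hℓNq A (deg hqN A φ) := by
  have key : ((CosetData.ofHom (conjDelta hqN)).comp (tData hℓN)).op A =
      ((tData hℓNq).comp (CosetData.ofHom (conjDelta hqN))).op A := by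
    refine CosetData.op_eq_of_conj ((tData hℓNq).comp (CosetData.ofHom (conjDelta hqN)))
      ((CosetData.ofHom (conjDelta hqN)).comp (tData hℓN))
      (((Equiv.prodComm _ _).trans
        (Equiv.prodCongr (Equiv.refl Unit) (mulPerm hℓNq))))
      (fun p => (degUnip (N := N) hℓNq p.1)⁻¹) ?_ A
    rintro γ' ⟨y, ⟨⟩⟩
    show tCoc hℓN (conjDelta hqN γ') (mulPerm hℓNq y) =
      (degUnip hℓNq y)⁻¹ * conjDelta hqN (tCoc hℓNq γ' y) *
        ((degUnip (N := N) hℓNq (tPerm ℓ γ' y))⁻¹)⁻¹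
    rw [inv_inv, mul_assoc, (conjDelta_tCoc hqN hℓN hℓNq γ' y).2, inv_mul_cancel_left]
  have := congrArg (fun F => F φ) key
  rw [CosetData.comp_op, CosetData.comp_op] at this
  exact this

end Fermat.Agent.S41lib.HC
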