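/-
S41lib / HC / CommuteAL (helper1).

(C3) The Atkin–Lehner operator `alW` on `H(Γ₀(N q))` commutes with the Hecke operators `T_ℓ`,
`ℓ ∤ N q`; hence so does `coresB = coresA ∘ alW`.
-/
import Mathlib
import Fermat.Agent.S41lib.HC.CommuteCores
import Fermat.Agent.S41lib.HC.Equivariance

set_option autoImplicit false
set_option linter.unusedSectionVars false

noncomputable section

namespace Fermat.Agent.S41lib.HC

open UpperHalfPlane Matrix.SpecialLinearGroup CongruenceSubgroup ModularForm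
open Fermat.Agent.S16lib.LH Fermat.Agent.S29lib.H Fermat.Agent.S31lib.PET
open P2MW.S_ModularForm_heckeT_slash_eq_self_of_mem_Gamma0.ModularForm.HeckeSlashInvariance
open scoped MatrixGroups

variable {N q ℓ : ℕ} [NeZero N] [Fact q.Prime] [Fact ℓ.Prime] (hqN : ¬ q ∣ N)
  (hℓN : ¬ ℓ ∣ N) (hℓNq : ¬ ℓ ∣ N * q)
  (x y₀ z w : ℤ) (h : (q : ℤ) * x * w - (N : ℤ) * y₀ * z = 1)

/-! ### `W h_y = v h_{y'} W` -/

/-- the lower left entry of `W · h_y · adj W` -/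
theorem alMat_mul_repInt_mul_adj (y : OnePoint (ZMod ℓ)) :
    ∃ K : ℤ, (alMat N q x y₀ z w * repInt ℓ y * alMat N q w (-y₀) (-z) x) 1 0 =
      (q : ℤ) * ((N : ℤ) * (q : ℤ) * K) := by
  induction y using OnePoint.rec with
  | infty =>
    refine ⟨z * ((ℓ : ℤ) * w - w), ?_⟩
    simp only [alMat, repInt_infty, Matrix.mul_apply, Fin.sum_univ_two, Matrix.of_apply,
      Matrix.cons_val', Matrix.cons_val_zero, Matrix.cons_val_one, Matrix.empty_val',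
      Matrix.cons_val_fin_one]
    ring
  | coe j =>
    refine ⟨z * (w - (N : ℤ) * z * (j.val : ℤ) - w * (ℓ : ℤ)), ?_⟩
    simp only [alMat, repInt_coe, Matrix.mul_apply, Fin.sum_univ_two, Matrix.of_apply,
      Matrix.cons_val', Matrix.cons_val_zero, Matrix.cons_val_one, Matrix.empty_val',
      Matrix.cons_val_fin_one]
    ring

/-- the lower left entry of `v · h_{y'}` -/
theorem mul_repInt_one_zero (v : Matrix (Fin 2) (Fin 2) ℤ) (y' : OnePoint (ZMod ℓ)) :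
    ∃ A : ℤ, A ∣ (ℓ : ℤ) ∧ (v * repInt ℓ y') 1 0 = v 1 0 * A := by
  induction y' using OnePoint.rec with
  | infty =>
    refine ⟨ℓ, dvd_rfl, ?_⟩
    simp [repInt_infty, Matrix.mul_apply, Fin.sum_univ_two]
  | coe j =>
    refine ⟨1, one_dvd _, ?_⟩
    simp [repInt_coe, Matrix.mul_apply, Fin.sum_univ_two]

include hℓNq in
/-- `W h_y = v h_{y'} W` with `v ∈ SL₂(ℤ)` forces `v ∈ Γ₀(N q)` -/
theorem mem_Gamma0_of_alGL_rel {v : SL(2, ℤ)} {y y' : OnePoint (ZMod ℓ)}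
    (hv : alGL x y₀ z w h * heckeRep ℓ y =
      (mapGL ℝ v : GL (Fin 2) ℝ) * heckeRep ℓ y' * alGL x y₀ z w h) :
    v ∈ Gamma0 (N * q) := by
  have hℓ : ℓ.Prime := Fact.out
  have hq0 : (q : ℤ) ≠ 0 := by exact_mod_cast (Fact.out : q.Prime).ne_zero
  -- integer identity
  have h1 : alMat N q x y₀ z w * repInt ℓ y =
      (v : Matrix (Fin 2) (Fin 2) ℤ) * repInt ℓ y' * alMat N q x y₀ z w := by
    have h2 := congrArg (fun g : GL (Fin 2) ℝ => (g : Matrix (Fin 2) (Fin 2) ℝ)) hv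
    simp only [Units.val_mul] at h2
    rw [coe_alGL, coe_heckeRep, coe_heckeRep, coe_mapGL_int, ← Matrix.map_mul, ← Matrix.map_mul,
      ← Matrix.map_mul] at h2
    exact Matrix.map_injective (Int.cast_injective (α := ℝ)) h2
  have h3 : alMat N q x y₀ z w * repInt ℓ y * alMat N q w (-y₀) (-z) x =
      (q : ℤ) • ((v : Matrix (Fin 2) (Fin 2) ℤ) * repInt ℓ y') := by
    rw [h1, Matrix.mul_assoc, alMat_mul_alMat_adj N q x y₀ z w h, Matrix.mul_smul, Matrix.mul_one]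
  obtain ⟨K, hK⟩ := alMat_mul_repInt_mul_adj (N := N) (q := q) (ℓ := ℓ) x y₀ z w y
  obtain ⟨A, hA, hvA⟩ := mul_repInt_one_zero (v : Matrix (Fin 2) (Fin 2) ℤ) y'
  have e10 := congrFun (congrFun h3 1) 0
  rw [hK, Matrix.smul_apply, hvA, smul_eq_mul] at e10
  have e10' : (N : ℤ) * (q : ℤ) * K = v 1 0 * A := mul_left_cancel₀ hq0 e10
  rw [mem_Gamma0_iff_dvd]
  have hcop : IsCoprime (((N * q : ℕ) : ℤ)) A := by
    have hc : IsCoprime (((N * q : ℕ) : ℤ)) (ℓ : ℤ) := by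
      rw [Nat.isCoprime_iff_coprime]
      exact ((Nat.Prime.coprime_iff_not_dvd hℓ).mpr hℓNq).symm
    exact hc.of_isCoprime_of_dvd_right hA
  have hdvd : (((N * q : ℕ) : ℤ)) ∣ v 1 0 * A := by
    rw [← e10']
    push_cast
    exact dvd_mul_right _ _
  exact hcop.dvd_of_dvd_mul_right hdvd

include hℓN hℓNq in
theorem exists_alGL_mul_heckeRep (y : OnePoint (ZMod ℓ)) :
    ∃ (y' : OnePoint (ZMod ℓ)) (v : ↥(Gamma0 (N * q))),
      alGL x y₀ z w h * heckeRep ℓ y =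
        (mapGL ℝ ((v : ↥(Gamma0 (N * q))) : SL(2, ℤ)) : GL (Fin 2) ℝ) * heckeRep ℓ y' *
          alGL x y₀ z w h := by
  set a : ↥(Gamma0 N) := alA x y₀ z w h with ha
  have hW := alGL_eq_alA_mul x y₀ z w h
  have h1 := heckeDiag_mul_heckeRep (N := N) hℓNq y
  have h2 := tCoc_rel hℓN a⁻¹ (mulPerm hℓNq y)
  set v₀ : ↥(Gamma0 N) := a * degUnip hℓNq y * tCoc hℓN a⁻¹ (mulPerm hℓNq y) with hv₀
  have hv : alGL x y₀ z w h * heckeRep ℓ y =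
      (mapGL ℝ ((v₀ : ↥(Gamma0 N)) : SL(2, ℤ)) : GL (Fin 2) ℝ) *
        heckeRep ℓ (tPerm ℓ a⁻¹ (mulPerm hℓNq y)) * alGL x y₀ z w h := by
    have h2' : heckeRep ℓ (mulPerm hℓNq y) =
        (mapGL ℝ ((tCoc hℓN a⁻¹ (mulPerm hℓNq y) : ↥(Gamma0 N)) : SL(2, ℤ)) : GL (Fin 2) ℝ) *
          heckeRep ℓ (tPerm ℓ a⁻¹ (mulPerm hℓNq y)) *
            (mapGL ℝ ((a : ↥(Gamma0 N)) : SL(2, ℤ)) : GL (Fin 2) ℝ) := by
      rw [← h2, Subgroup.coe_inv, map_inv, inv_mul_cancel_right]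
    rw [hW, mul_assoc, h1, h2', hv₀, Subgroup.coe_mul, Subgroup.coe_mul, map_mul, map_mul]
    simp only [mul_assoc]
    rfl
  exact ⟨_, ⟨_, mem_Gamma0_of_alGL_rel hℓNq x y₀ z w h hv⟩, hv⟩

/-! ### (C3) -/

include hℓN in
/-- **`alW ∘ T_ℓ = T_ℓ ∘ alW`** -/
theorem alW_heckeT {A : Type*} [AddCommGroup A] (φ : H (Gamma0 (N * q)) A) :
    alW x y₀ z w h A (heckeT hℓNq A φ) = heckeT hℓNq A (alW x y₀ z w h A φ) := by
  have key : ((CosetData.ofHom (alConjMulEquiv x y₀ z w h).toMonoidHom).comp (tData hℓNq)).op A =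
      ((tData hℓNq).comp (CosetData.ofHom (alConjMulEquiv x y₀ z w h).toMonoidHom)).op A := by
    refine CosetData.op_eq_of_reps _ _
      (fun p : Unit × OnePoint (ZMod ℓ) => heckeRep ℓ p.2 * (alGL x y₀ z w h)⁻¹)
      (fun k : OnePoint (ZMod ℓ) × Unit => (alGL x y₀ z w h)⁻¹ * heckeRep ℓ k.1)
      ?_ ?_ ?_ ?_ ?_ ?_ A
    · -- h₁
      rintro γ ⟨⟨⟩, y⟩
      show heckeRep ℓ y * (alGL x y₀ z w h)⁻¹ * (mapGL ℝ (γ : SL(2, ℤ)) : GL (Fin 2) ℝ) =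
        (mapGL ℝ ((tCoc hℓNq (alConj x y₀ z w h γ) y : ↥(Gamma0 (N * q))) : SL(2, ℤ)) :
          GL (Fin 2) ℝ) * (heckeRep ℓ (tPerm ℓ (alConj x y₀ z w h γ) y) * (alGL x y₀ z w h)⁻¹)
      have e1 := alW_rel x y₀ z w h γ ()
      have e1' : (alGL x y₀ z w h)⁻¹ * (mapGL ℝ (γ : SL(2, ℤ)) : GL (Fin 2) ℝ) =
          (mapGL ℝ ((alConj x y₀ z w h γ : ↥(Gamma0 (N * q))) : SL(2, ℤ)) : GL (Fin 2) ℝ) *
            (alGL x y₀ z w h)⁻¹ := e1
      rw [mul_assoc, e1', ← mul_assoc, tCoc_rel hℓNq, mul_assoc]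
    · -- h₂
      rintro γ ⟨y, ⟨⟩⟩
      show (alGL x y₀ z w h)⁻¹ * heckeRep ℓ y * (mapGL ℝ (γ : SL(2, ℤ)) : GL (Fin 2) ℝ) =
        (mapGL ℝ ((alConj x y₀ z w h (tCoc hℓNq γ y) : ↥(Gamma0 (N * q))) : SL(2, ℤ)) :
          GL (Fin 2) ℝ) * ((alGL x y₀ z w h)⁻¹ * heckeRep ℓ (tPerm ℓ γ y))
      have e1 := alW_rel x y₀ z w h (tCoc hℓNq γ y) ()
      have e1' : (alGL x y₀ z w h)⁻¹ *
          (mapGL ℝ ((tCoc hℓNq γ y : ↥(Gamma0 (N * q))) : SL(2, ℤ)) : GL (Fin 2) ℝ) =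
          (mapGL ℝ ((alConj x y₀ z w h (tCoc hℓNq γ y) : ↥(Gamma0 (N * q))) : SL(2, ℤ)) :
            GL (Fin 2) ℝ) * (alGL x y₀ z w h)⁻¹ := e1
      rw [mul_assoc, tCoc_rel hℓNq, ← mul_assoc, e1', mul_assoc]
    · -- U₁
      rintro c c' ⟨⟨⟩, y⟩ ⟨⟨⟩, y'⟩ hcc
      simp only at hcc
      rw [← mul_assoc, ← mul_assoc] at hcc
      have := (heckeRep_coset_unique (mul_right_cancel hcc)).1
      rw [this]
    · -- U₂
      rintro c c' ⟨y, ⟨⟩⟩ ⟨y', ⟨⟩⟩ hcc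
      simp only at hcc
      -- write `c = alConj c₀`
      obtain ⟨c₀, rfl⟩ := (alConjMulEquiv x y₀ z w h).surjective c
      obtain ⟨c₀', rfl⟩ := (alConjMulEquiv x y₀ z w h).surjective c'
      have e1 : (alGL x y₀ z w h)⁻¹ *
          (mapGL ℝ ((c₀ : ↥(Gamma0 (N * q))) : SL(2, ℤ)) : GL (Fin 2) ℝ) =
          (mapGL ℝ ((alConj x y₀ z w h c₀ : ↥(Gamma0 (N * q))) : SL(2, ℤ)) : GL (Fin 2) ℝ) *
            (alGL x y₀ z w h)⁻¹ := alW_rel x y₀ z w h c₀ ()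
      have e2 : (alGL x y₀ z w h)⁻¹ *
          (mapGL ℝ ((c₀' : ↥(Gamma0 (N * q))) : SL(2, ℤ)) : GL (Fin 2) ℝ) =
          (mapGL ℝ ((alConj x y₀ z w h c₀' : ↥(Gamma0 (N * q))) : SL(2, ℤ)) : GL (Fin 2) ℝ) *
            (alGL x y₀ z w h)⁻¹ := alW_rel x y₀ z w h c₀' ()
      simp only [alConjMulEquiv_apply] at hcc ⊢
      rw [← mul_assoc, ← mul_assoc, ← e1, ← e2, mul_assoc, mul_assoc] at hcc
      obtain ⟨hy, hc⟩ := heckeRep_coset_unique (mul_left_cancel hcc)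
      refine ⟨by rw [hy], ?_⟩
      rw [Subtype.ext hc]
    · -- E
      rintro ⟨⟨⟩, y⟩
      obtain ⟨y', v, hv⟩ := exists_alGL_mul_heckeRep hℓN hℓNq x y₀ z w h y
      refine ⟨(y', ()), alConj x y₀ z w h v, ?_⟩
      show heckeRep ℓ y * (alGL x y₀ z w h)⁻¹ =
        (mapGL ℝ ((alConj x y₀ z w h v : ↥(Gamma0 (N * q))) : SL(2, ℤ)) : GL (Fin 2) ℝ) *
          ((alGL x y₀ z w h)⁻¹ * heckeRep ℓ y')
      have e1 : (alGL x y₀ z w h)⁻¹ *
          (mapGL ℝ ((v : ↥(Gamma0 (N * q))) : SL(2, ℤ)) : GL (Fin 2) ℝ) =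
          (mapGL ℝ ((alConj x y₀ z w h v : ↥(Gamma0 (N * q))) : SL(2, ℤ)) : GL (Fin 2) ℝ) *
            (alGL x y₀ z w h)⁻¹ := alW_rel x y₀ z w h v ()
      rw [← mul_assoc, ← e1, mul_assoc, eq_inv_mul_iff_mul_eq, ← mul_assoc, hv,
        mul_inv_cancel_right]
    · -- card
      rw [Fintype.card_prod, Fintype.card_prod, mul_comm]
  have := congrArg (fun F => F φ) key
  rw [CosetData.comp_op, CosetData.comp_op] at this
  exact this

/-- **`coresB ∘ T_ℓ = T_ℓ ∘ coresB`** -/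
theorem coresB_heckeT {A : Type*} [AddCommGroup A] (φ : H (Gamma0 (N * q)) A) :
    coresB hqN x y₀ z w h A (heckeT hℓNq A φ) = heckeT hℓN A (coresB hqN x y₀ z w h A φ) := by
  rw [coresB_def, coresB_def, alW_heckeT hℓN hℓNq x y₀ z w h, coresA_heckeT hqN hℓN hℓNq]

end Fermat.Agent.S41lib.HC
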