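/-
S41lib / HC / BridgeAL (helper1).

The Atkin–Lehner operator `W` on `S₂(Γ₀(N q))` (helper2's `NEW.wOp`) corresponds to `alW` under the
Eichler–Shimura map, `coresB ∘ per = per ∘ (Tr W × Tr W)`, and hence
`ker coresA ∩ ker coresB ∩ im per = per (newSub × newSub)`.
-/
import Mathlib
import Fermat.Agent.S41lib.HC.BridgeTrace
import Fermat.Agent.S41lib.NEW.NewSub
import Fermat.Agent.ProgramR.ES.Assembly

set_option autoImplicit false
set_option linter.unusedSectionVars false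

noncomputable section

namespace Fermat.Agent.S41lib.HC

open UpperHalfPlane Filter Topology CongruenceSubgroup Matrix.SpecialLinearGroup ModularForm
open ModularCurve ModularCurve.Period Fermat.Agent.TeamB Fermat.Agent.ProgramR.ES
open Fermat.Agent.S16lib.LH Fermat.Agent.S29lib.H
open Fermat.Agent.S41lib.NEW
open scoped MatrixGroups ModularForm Manifold

variable {N q : ℕ} [NeZero N] [Fact q.Prime]
  (x y z w : ℤ) (h : (q : ℤ) * x * w - (N : ℤ) * y * z = 1)

/-- the two copies of the Atkin–Lehner matrix agree -/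
theorem alGL_eq_pet : Fermat.Agent.S31lib.PET.alGL x y z w h = alGL x y z w h := rfl

include h in
/-- the `J`-conjugate parameters -/
theorem al_rel_neg : (q : ℤ) * x * w - (N : ℤ) * (-y) * (-z) = 1 := by linear_combination h

/-- `γ₀ = W⁻¹ · (J W J) ∈ Γ₀(N q)` -/
def alJElt : ↥(Gamma0 (N * q)) :=
  ⟨⟨!![(q : ℤ) * x * w + (N : ℤ) * y * z, -2 * w * y;
      -2 * (N : ℤ) * (q : ℤ) * x * z, (q : ℤ) * x * w + (N : ℤ) * y * z], by
    rw [Matrix.det_fin_two_of]
    linear_combination ((q : ℤ) * x * w - (N : ℤ) * y * z + 1) * h⟩, by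
    rw [Gamma0_mem]
    show (((-2 * (N : ℤ) * (q : ℤ) * x * z : ℤ)) : ZMod (N * q)) = 0
    rw [ZMod.intCast_zmod_eq_zero_iff_dvd]
    push_cast
    exact ⟨-2 * x * z, by ring⟩⟩

theorem alGL_neg_eq :
    alGL x (-y) (-z) w (al_rel_neg x y z w h) =
      alGL x y z w h * (mapGL ℝ ((alJElt x y z w h : ↥(Gamma0 (N * q))) : SL(2, ℤ)) :
        GL (Fin 2) ℝ) := by
  apply Units.ext
  rw [Units.val_mul]
  show ((alGL x (-y) (-z) w (al_rel_neg x y z w h) : GL (Fin 2) ℝ) : Matrix (Fin 2) (Fin 2) ℝ) =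
    ((alGL x y z w h : GL (Fin 2) ℝ) : Matrix (Fin 2) (Fin 2) ℝ) *
      ((mapGL ℝ ((alJElt x y z w h : ↥(Gamma0 (N * q))) : SL(2, ℤ)) : GL (Fin 2) ℝ) :
        Matrix (Fin 2) (Fin 2) ℝ)
  rw [coe_alGL, coe_alGL, coe_mapGL_eq, ← Matrix.map_mul]
  congr 1
  ext i j
  fin_cases i <;> fin_cases j <;>
    simp [alMat, alJElt, Matrix.mul_apply, Fin.sum_univ_two]
  · linear_combination (-(q : ℤ) * x) * h
  · linear_combination (y) * h
  · linear_combination ((N : ℤ) * (q : ℤ) * z) * h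
  · linear_combination (-(q : ℤ) * w) * h

theorem alGL_neg_mul_J :
    alGL x (-y) (-z) w (al_rel_neg x y z w h) * J = J * alGL x y z w h := by
  apply Units.ext
  rw [Units.val_mul, Units.val_mul]
  show ((alGL x (-y) (-z) w (al_rel_neg x y z w h) : GL (Fin 2) ℝ) : Matrix (Fin 2) (Fin 2) ℝ) *
      (J : GL (Fin 2) ℝ).val =
    (J : GL (Fin 2) ℝ).val * ((alGL x y z w h : GL (Fin 2) ℝ) : Matrix (Fin 2) (Fin 2) ℝ)
  rw [coe_alGL, coe_alGL, val_J]
  ext i j
  fin_cases i <;> fin_cases j <;>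
    simp [alMat, Matrix.mul_apply, Fin.sum_univ_two]

theorem det_alGL_inv_pos : 0 < ((alGL x y z w h : GL (Fin 2) ℝ)⁻¹).det.val := by
  rw [map_inv, Units.val_inv_eq_inv_val, inv_pos, det_alGL]
  exact_mod_cast Nat.pos_of_ne_zero (NeZero.ne q)

/-- `f ∣ W⁻¹ = f ∣ W` in weight `2` -/
theorem slash_alGL_inv (f : CuspForm (Gamma0 (N * q)) 2) :
    ⇑f ∣[(2 : ℤ)] (alGL x y z w h)⁻¹ = ⇑(wOp x y z w h 2 f) := by
  have h1 := wOp_wOp_two x y z w h f
  have h2 : (⇑f ∣[(2 : ℤ)] alGL x y z w h) ∣[(2 : ℤ)] alGL x y z w h = ⇑f := by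
    have := congrArg (fun F : CuspForm (Gamma0 (N * q)) 2 => (⇑F : ℍ → ℂ)) h1
    simpa [coe_wOp, alGL_eq_pet] using this
  rw [coe_wOp, alGL_eq_pet]
  conv_lhs => rw [← h2]
  rw [← SlashAction.slash_mul, mul_inv_cancel, SlashAction.slash_one]

/-- `f ∣ (J W J)⁻¹ = f ∣ W` in weight `2` -/
theorem slash_alGL_neg_inv (f : CuspForm (Gamma0 (N * q)) 2) :
    ⇑f ∣[(2 : ℤ)] (alGL x (-y) (-z) w (al_rel_neg x y z w h))⁻¹ = ⇑(wOp x y z w h 2 f) := by
  rw [alGL_neg_eq x y z w h, mul_inv_rev, SlashAction.slash_mul, ← slash_alGL_inv x y z w h]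
  congr 1
  rw [← map_inv]
  exact SlashInvariantFormClass.slash_action_eq f _
    (Subgroup.mem_map.mpr ⟨_, (Gamma0 (N * q)).inv_mem (alJElt x y z w h).2, rfl⟩)

/-- **`alW ∘ per = per ∘ (W × W)`** -/
theorem alW_periodHomPair (f g : CuspForm (Gamma0 (N * q)) 2) :
    alW x y z w h ℂ (periodHomPair (N * q) (f, g)) =
      periodHomPair (N * q) (wOp x y z w h 2 f, wOp x y z w h 2 g) := by
  have hN : NeZero (N * q) := ⟨Nat.mul_ne_zero (NeZero.ne N) (NeZero.ne q)⟩
  refine periodHomPair_op (CosetData.ofHom (alConjMulEquiv x y z w h).toMonoidHom)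
    (fun _ => (alGL x y z w h)⁻¹)
    (fun _ => (alGL x (-y) (-z) w (al_rel_neg x y z w h))⁻¹)
    (alW_rel x y z w h) (fun _ => det_alGL_inv_pos x y z w h)
    (fun _ => det_alGL_inv_pos x (-y) (-z) w (al_rel_neg x y z w h))
    (fun _ => ?_) f g _ _ ?_ ?_ ?_ ?_
  · rw [inv_mul_eq_iff_eq_mul, ← mul_assoc, alGL_neg_mul_J x y z w h, mul_assoc, mul_inv_cancel,
      mul_one]
  · rw [Fintype.sum_unique]; exact (slash_alGL_inv x y z w h f).symm
  · rw [Fintype.sum_unique]; exact (slash_alGL_neg_inv x y z w h f).symm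
  · rw [Fintype.sum_unique]; exact (slash_alGL_inv x y z w h g).symm
  · rw [Fintype.sum_unique]; exact (slash_alGL_neg_inv x y z w h g).symm

variable (hqN : ¬ q ∣ N)

/-- **`coresB ∘ per = per ∘ (Tr W × Tr W)`** -/
theorem coresB_periodHomPair (f g : CuspForm (Gamma0 (N * q)) 2) :
    coresB hqN x y z w h ℂ (periodHomPair (N * q) (f, g)) =
      periodHomPair N (trOp N q 2 (wOp x y z w h 2 f), trOp N q 2 (wOp x y z w h 2 g)) := by
  rw [coresB_def, alW_periodHomPair, coresA_periodHomPair]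

/-- **The kernel of `β = (coresA, coresB)` on the image of the Eichler–Shimura map is the image of
the `q`-new subspace.** -/
theorem cores_periodHomPair_eq_zero_iff (f g : CuspForm (Gamma0 (N * q)) 2) :
    (coresA hqN ℂ (periodHomPair (N * q) (f, g)) = 0 ∧
      coresB hqN x y z w h ℂ (periodHomPair (N * q) (f, g)) = 0) ↔
    (f ∈ newSub x y z w h ∧ g ∈ newSub x y z w h) := by
  rw [coresA_periodHomPair, coresB_periodHomPair, mem_newSub, mem_newSub]
  have hinj := periodHomPair_injective N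
  have h0 : ∀ a b : CuspForm (Gamma0 N) 2, periodHomPair N (a, b) = 0 ↔ a = 0 ∧ b = 0 := by
    intro a b
    constructor
    · intro hab
      have : (a, b) = (0 : CuspForm (Gamma0 N) 2 × CuspForm (Gamma0 N) 2) :=
        hinj (by rw [hab, map_zero])
      exact ⟨congrArg Prod.fst this, congrArg Prod.snd this⟩
    · rintro ⟨rfl, rfl⟩
      exact map_zero _
  rw [h0, h0]
  tauto

end Fermat.Agent.S41lib.HC
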