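/-
S41lib / HC / BridgeMain (helper1).

The bridge in the form consumed by the level-raising skeleton:
* `heckeT_periodHomPair`: `T_ℓ ∘ per = per ∘ (T_ℓ × T_ℓ)`;
* `exists_newSub_of_cores_eq_zero`: an integral parabolic class of level `N q` killed by both
  transfers `coresA`, `coresB` is the period class of a pair of `q`-new forms;
* compatibility of all the operators with the change of coefficients `ℤ → ℂ`.
-/
import Mathlib
import Fermat.Agent.S41lib.HC.BridgeAL
import Fermat.Agent.S41lib.HC.Equivariance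
import Fermat.Agent.S21

set_option autoImplicit false
set_option linter.unusedSectionVars false

noncomputable section

namespace Fermat.Agent.S41lib.HC

open UpperHalfPlane Filter Topology CongruenceSubgroup Matrix.SpecialLinearGroup ModularForm
open ModularCurve ModularCurve.Period Fermat.Agent.TeamB Fermat.Agent.ProgramR.ES
open Fermat.Agent.S16lib.LH Fermat.Agent.S29lib.H Fermat.Agent.S31lib.PET
open Fermat.Agent.S41lib.NEW
open scoped MatrixGroups ModularForm Manifold

/-! ### Hecke operators -/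

/-- **`T_ℓ ∘ per = per ∘ (T_ℓ × T_ℓ)`** -/
theorem heckeT_periodHomPair {M ℓ : ℕ} [NeZero M] [Fact ℓ.Prime] (hℓ : ℓ.Prime) (hℓM : ¬ ℓ ∣ M)
    (f g : CuspForm (Gamma0 M) 2) :
    heckeT hℓM ℂ (periodHomPair M (f, g)) =
      periodHomPair M (CuspForm.heckeTLin 2 hℓ hℓM f, CuspForm.heckeTLin 2 hℓ hℓM g) := by
  ext γ
  show heckeT hℓM ℂ (periodHomPair M (f, g)) (Additive.ofMul γ) = _
  rw [heckeT_apply]
  exact (periodHomPair_heckeT hℓ hℓM f g γ).symm

/-! ### Change of coefficients -/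

/-- change of coefficients on `Hom(Γ, ·)` -/
def coeff (Γ : Subgroup SL(2, ℤ)) {A A' : Type*} [AddCommGroup A] [AddCommGroup A']
    (j : A →+ A') : H Γ A →+ H Γ A' where
  toFun φ := j.comp φ
  map_zero' := by ext; simp
  map_add' φ ψ := by ext; simp

@[simp] theorem coeff_apply (Γ : Subgroup SL(2, ℤ)) {A A' : Type*} [AddCommGroup A]
    [AddCommGroup A'] (j : A →+ A') (φ : H Γ A) (γ : Additive Γ) :
    coeff Γ j φ γ = j (φ γ) := rfl

theorem coeff_injective (Γ : Subgroup SL(2, ℤ)) {A A' : Type*} [AddCommGroup A]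
    [AddCommGroup A'] (j : A →+ A') (hj : Function.Injective j) :
    Function.Injective (coeff Γ j) := by
  intro φ ψ hφψ
  ext γ
  apply hj
  exact congrArg (fun F : H Γ A' => F γ) hφψ

theorem coeff_isParabolicHom (Γ : Subgroup SL(2, ℤ)) {A A' : Type*} [AddCommGroup A]
    [AddCommGroup A'] (j : A →+ A') {φ : H Γ A} (hφ : IsParabolicHom Γ φ) :
    IsParabolicHom Γ (coeff Γ j φ) := by
  intro γ hγ
  rw [coeff_apply, hφ γ hγ, map_zero]

theorem CosetData.op_coeff {Γ Γ' : Subgroup SL(2, ℤ)} {ι : Type*} [Fintype ι]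
    (D : CosetData ↥Γ ↥Γ' ι) {A A' : Type*} [AddCommGroup A] [AddCommGroup A'] (j : A →+ A')
    (φ : H Γ' A) : D.op A' (coeff Γ' j φ) = coeff Γ j (D.op A φ) :=
  D.op_comp_hom j φ

section Level

variable {N q : ℕ} [NeZero N] [Fact q.Prime] (hqN : ¬ q ∣ N)
  (x y z w : ℤ) (h : (q : ℤ) * x * w - (N : ℤ) * y * z = 1)
  {A A' : Type*} [AddCommGroup A] [AddCommGroup A'] (j : A →+ A')

theorem heckeT_coeff {M ℓ : ℕ} [Fact ℓ.Prime] (hℓM : ¬ ℓ ∣ M) (φ : H (Gamma0 M) A) :
    heckeT hℓM A' (coeff _ j φ) = coeff _ j (heckeT hℓM A φ) :=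
  (tData hℓM).op_coeff j φ

theorem res_coeff (φ : H (Gamma0 N) A) :
    res N q A' (coeff _ j φ) = coeff _ j (res N q A φ) :=
  (CosetData.ofHom (inclMul N q)).op_coeff j φ

theorem deg_coeff (φ : H (Gamma0 N) A) :
    deg hqN A' (coeff _ j φ) = coeff _ j (deg hqN A φ) :=
  (CosetData.ofHom (conjDelta hqN)).op_coeff j φ

theorem coresA_coeff (φ : H (Gamma0 (N * q)) A) :
    coresA hqN A' (coeff _ j φ) = coeff _ j (coresA hqN A φ) :=
  (coresAData hqN).op_coeff j φ

theorem alW_coeff (φ : H (Gamma0 (N * q)) A) :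
    alW x y z w h A' (coeff _ j φ) = coeff _ j (alW x y z w h A φ) :=
  (CosetData.ofHom (alConjMulEquiv x y z w h).toMonoidHom).op_coeff j φ

theorem coresB_coeff (φ : H (Gamma0 (N * q)) A) :
    coresB hqN x y z w h A' (coeff _ j φ) = coeff _ j (coresB hqN x y z w h A φ) := by
  rw [coresB_def, coresB_def, alW_coeff, coresA_coeff]

/-- **An integral parabolic class of level `N q` killed by `coresA` and `coresB` is the period
class of a pair of `q`-new forms.** -/
theorem exists_newSub_of_cores_eq_zero (k : H (Gamma0 (N * q)) ℤ)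
    (hk : IsParabolicHom (Gamma0 (N * q)) k)
    (hA : coresA hqN ℤ k = 0) (hB : coresB hqN x y z w h ℤ k = 0) :
    ∃ f g : CuspForm (Gamma0 (N * q)) 2, f ∈ newSub x y z w h ∧ g ∈ newSub x y z w h ∧
      periodHomPair (N * q) (f, g) = coeff _ (Int.castAddHom ℂ) k := by
  have hN : NeZero (N * q) := ⟨Nat.mul_ne_zero (NeZero.ne N) (NeZero.ne q)⟩
  have hpar : coeff _ (Int.castAddHom ℂ) k ∈ parabolicHoms ℂ (Gamma0 (N * q)) ℂ :=
    coeff_isParabolicHom _ _ hk
  rw [← (Fermat.Agent.S21.result (N * q)).2] at hpar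
  obtain ⟨⟨f, g⟩, hfg⟩ := hpar
  refine ⟨f, g, ?_⟩
  have h1 := (cores_periodHomPair_eq_zero_iff x y z w h hqN f g).mp ?_
  · exact ⟨h1.1, h1.2, hfg⟩
  · rw [hfg, coresA_coeff, coresB_coeff, hA, hB, map_zero]
    exact ⟨rfl, rfl⟩

end Level

end Fermat.Agent.S41lib.HC
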